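/-
JT3 / T2-lite, part 1a: the coset operator `T_p` on homomorphisms `Γ₀(N) → M` (`p ∤ N` prime).

The `p + 1` matrices `heckeRep p x` (`x ∈ ℙ¹(𝔽_p)`; `∞ ↦ diag(p, 1)`, `j ↦ [[1, j], [0, p]]`)
represent `Γ₀(N) \ Γ₀(N) diag(1, p) Γ₀(N)`, and for `γ ∈ Γ₀(N)`
`heckeRep p x · γ = c_x(γ) · heckeRep p (x ⋆ γ)` with `c_x(γ) ∈ Γ₀(N)` (prelude: `heckeRep_mul`).
`c` is a cocycle for the right action `⋆` of `Γ₀(N)` on `ℙ¹(𝔽_p)`, and

  `(T_p χ)(γ) = ∏_x χ (c_x(γ))`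

is the usual action of the Hecke correspondence on `Hom(Γ₀(N), M)` (a transfer-type formula).
Prefix `t2c_`.
-/
import Mathlib
import Fermat.Prelude.Sol.S_ModularForm_heckeT_slash_eq_self_of_mem_Gamma0

set_option autoImplicit false

noncomputable section

open CongruenceSubgroup Matrix.SpecialLinearGroup
open P2MW.S_ModularForm_heckeT_slash_eq_self_of_mem_Gamma0.ModularForm.HeckeSlashInvariance
open scoped MatrixGroups

namespace Fermat.Agent.JT3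

variable {N : ℕ} {p : ℕ} [Fact p.Prime]

/-! ### The right action of `SL(2, ℤ)` on `ℙ¹(𝔽_p)` -/

theorem t2c_redMatrix_mul (g h : SL(2, ℤ)) :
    redMatrix p (g * h) = redMatrix p h * redMatrix p g := by
  ext i j
  fin_cases i <;> fin_cases j <;>
    simp [redMatrix, Matrix.mul_apply, Fin.sum_univ_two] <;> ring

theorem t2c_redMatrix_one : redMatrix p (1 : SL(2, ℤ)) = 1 := by
  ext i j
  fin_cases i <;> fin_cases j <;> simp [redMatrix]

/-- the right action `x ⋆ g` of `SL(2, ℤ)` on `ℙ¹(𝔽_p)` -/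
def t2c_act (g : SL(2, ℤ)) (x : OnePoint (ZMod p)) : OnePoint (ZMod p) := redMatrix p g • x

theorem t2c_act_mul (g h : SL(2, ℤ)) (x : OnePoint (ZMod p)) :
    t2c_act (g * h) x = t2c_act h (t2c_act g x) := by
  rw [t2c_act, t2c_act, t2c_act, t2c_redMatrix_mul, mul_smul]

theorem t2c_act_one (x : OnePoint (ZMod p)) : t2c_act (1 : SL(2, ℤ)) x = x := by
  rw [t2c_act, t2c_redMatrix_one, one_smul]

/-- `x ↦ x ⋆ g` as a permutation -/
def t2c_perm (g : SL(2, ℤ)) : Equiv.Perm (OnePoint (ZMod p)) := MulAction.toPerm (redMatrix p g)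

theorem t2c_perm_apply (g : SL(2, ℤ)) (x : OnePoint (ZMod p)) : t2c_perm g x = t2c_act g x := rfl

/-! ### The cocycle -/

theorem t2c_dvd_of_mem {γ : SL(2, ℤ)} (hγ : γ ∈ Gamma0 N) : (N : ℤ) ∣ γ 1 0 :=
  (ZMod.intCast_zmod_eq_zero_iff_dvd _ _).mp (Gamma0_mem.mp hγ)

theorem t2c_mem_of_dvd {γ : SL(2, ℤ)} (hγ : (N : ℤ) ∣ γ 1 0) : γ ∈ Gamma0 N :=
  Gamma0_mem.mpr ((ZMod.intCast_zmod_eq_zero_iff_dvd _ _).mpr hγ)

/-- the cocycle `c_x(γ) ∈ Γ₀(N)` with `heckeRep p x · γ = c_x(γ) · heckeRep p (x ⋆ γ)` -/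
def t2c_coc (hpN : ¬ p ∣ N) (x : OnePoint (ZMod p)) (γ : Gamma0 N) : Gamma0 N :=
  ⟨(heckeRep_mul hpN (γ : SL(2, ℤ)) (t2c_dvd_of_mem γ.2) x).choose,
    t2c_mem_of_dvd (heckeRep_mul hpN (γ : SL(2, ℤ)) (t2c_dvd_of_mem γ.2) x).choose_spec.1⟩

theorem t2c_coc_spec (hpN : ¬ p ∣ N) (x : OnePoint (ZMod p)) (γ : Gamma0 N) :
    heckeRep p x * mapGL ℝ (γ : SL(2, ℤ)) =
      mapGL ℝ ((t2c_coc hpN x γ : Gamma0 N) : SL(2, ℤ)) * heckeRep p (t2c_act (γ : SL(2, ℤ)) x) :=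
  (heckeRep_mul hpN (γ : SL(2, ℤ)) (t2c_dvd_of_mem γ.2) x).choose_spec.2

/-- uniqueness of the cocycle -/
theorem t2c_coc_unique (hpN : ¬ p ∣ N) (x : OnePoint (ZMod p)) (γ : Gamma0 N) (g' : SL(2, ℤ))
    (h : heckeRep p x * mapGL ℝ (γ : SL(2, ℤ)) =
      mapGL ℝ g' * heckeRep p (t2c_act (γ : SL(2, ℤ)) x)) :
    ((t2c_coc hpN x γ : Gamma0 N) : SL(2, ℤ)) = g' := by
  have h1 := t2c_coc_spec hpN x γ
  rw [h] at h1
  exact (mapGL_injective (mul_right_cancel h1)).symm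

theorem t2c_coc_mul (hpN : ¬ p ∣ N) (x : OnePoint (ZMod p)) (γ γ' : Gamma0 N) :
    t2c_coc hpN x (γ * γ') =
      t2c_coc hpN x γ * t2c_coc hpN (t2c_act (γ : SL(2, ℤ)) x) γ' := by
  apply Subtype.ext
  apply t2c_coc_unique
  rw [Subgroup.coe_mul, map_mul, ← mul_assoc, t2c_coc_spec hpN x γ, mul_assoc,
    t2c_coc_spec hpN (t2c_act (γ : SL(2, ℤ)) x) γ', ← mul_assoc, t2c_act_mul, Subgroup.coe_mul,
    map_mul]

theorem t2c_coc_one (hpN : ¬ p ∣ N) (x : OnePoint (ZMod p)) :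
    t2c_coc hpN x (1 : Gamma0 N) = 1 := by
  apply Subtype.ext
  apply t2c_coc_unique
  rw [Subgroup.coe_one, map_one, mul_one, t2c_act_one, one_mul]

/-! ### The coset operator -/

section mul

variable {M : Type*} [CommMonoid M]

/-- the coset operator `T_p` on `Hom(Γ₀(N), M)`: `(T_p χ)(γ) = ∏_x χ(c_x(γ))` -/
def t2c_Tfun (hpN : ¬ p ∣ N) (χ : Gamma0 N →* M) : Gamma0 N →* M where
  toFun γ := ∏ x : OnePoint (ZMod p), χ (t2c_coc hpN x γ)
  map_one' := by simp [t2c_coc_one]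
  map_mul' γ γ' := by
    simp only [t2c_coc_mul, map_mul, Finset.prod_mul_distrib]
    congr 1
    exact Equiv.prod_comp (t2c_perm (γ : SL(2, ℤ))) fun x => χ (t2c_coc hpN x γ')

theorem t2c_Tfun_apply (hpN : ¬ p ∣ N) (χ : Gamma0 N →* M) (γ : Gamma0 N) :
    t2c_Tfun hpN χ γ = ∏ x : OnePoint (ZMod p), χ (t2c_coc hpN x γ) := rfl

/-- the coset operator is multiplicative in `χ` -/
def t2c_T (hpN : ¬ p ∣ N) : (Gamma0 N →* M) →* (Gamma0 N →* M) where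
  toFun := t2c_Tfun hpN
  map_one' := by
    ext γ
    simp [t2c_Tfun_apply]
  map_mul' χ χ' := by
    ext γ
    simp [t2c_Tfun_apply, Finset.prod_mul_distrib]

theorem t2c_T_apply (hpN : ¬ p ∣ N) (χ : Gamma0 N →* M) (γ : Gamma0 N) :
    t2c_T hpN χ γ = ∏ x : OnePoint (ZMod p), χ (t2c_coc hpN x γ) := rfl

/-- naturality in the target -/
theorem t2c_T_comp {M' : Type*} [CommMonoid M'] (hpN : ¬ p ∣ N) (φ : M →* M')
    (χ : Gamma0 N →* M) : t2c_T hpN (φ.comp χ) = φ.comp (t2c_T hpN χ) := by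
  ext γ
  simp [t2c_T_apply, map_prod]

end mul

section add

variable {A : Type*} [AddCommMonoid A]

/-- the coset operator on additive characters (the shape of the prelude's `periodMap`) -/
def t2c_TaddFun (hpN : ¬ p ∣ N) (ψ : Additive (Gamma0 N) →+ A) : Additive (Gamma0 N) →+ A where
  toFun γ := ∑ x : OnePoint (ZMod p), ψ (Additive.ofMul (t2c_coc hpN x (Additive.toMul γ)))
  map_zero' := by simp [t2c_coc_one]
  map_add' γ γ' := by
    simp only [toMul_add, t2c_coc_mul, ofMul_mul, map_add, Finset.sum_add_distrib]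
    congr 1
    exact Equiv.sum_comp (t2c_perm ((Additive.toMul γ : Gamma0 N) : SL(2, ℤ)))
      fun x => ψ (Additive.ofMul (t2c_coc hpN x (Additive.toMul γ')))

/-- the coset operator `T_p` on `Hom(Γ₀(N), A)`, additively -/
def t2c_Tadd (hpN : ¬ p ∣ N) : (Additive (Gamma0 N) →+ A) →+ (Additive (Gamma0 N) →+ A) where
  toFun := t2c_TaddFun hpN
  map_zero' := by
    ext γ
    simp [t2c_TaddFun]
  map_add' ψ ψ' := by
    ext γ
    simp [t2c_TaddFun, Finset.sum_add_distrib]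

theorem t2c_Tadd_apply (hpN : ¬ p ∣ N) (ψ : Additive (Gamma0 N) →+ A) (γ : Gamma0 N) :
    t2c_Tadd hpN ψ (Additive.ofMul γ) =
      ∑ x : OnePoint (ZMod p), ψ (Additive.ofMul (t2c_coc hpN x γ)) := rfl

/-- naturality in the target -/
theorem t2c_Tadd_comp {A' : Type*} [AddCommMonoid A'] (hpN : ¬ p ∣ N) (φ : A →+ A')
    (ψ : Additive (Gamma0 N) →+ A) : t2c_Tadd hpN (φ.comp ψ) = φ.comp (t2c_Tadd hpN ψ) := by
  refine AddMonoidHom.ext fun γ => ?_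
  obtain ⟨γ, rfl⟩ := Additive.ofMul.surjective γ
  rw [AddMonoidHom.comp_apply, t2c_Tadd_apply, t2c_Tadd_apply, map_sum]
  rfl

end add

/-- the additive and the multiplicative operators agree -/
theorem t2c_T_toAdditive {M : Type*} [CommMonoid M] (hpN : ¬ p ∣ N) (χ : Gamma0 N →* M)
    (γ : Gamma0 N) :
    t2c_Tadd hpN (MonoidHom.toAdditive χ) (Additive.ofMul γ) = Additive.ofMul (t2c_T hpN χ γ) := by
  rw [t2c_Tadd_apply, t2c_T_apply, ofMul_prod]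
  rfl

end Fermat.Agent.JT3
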