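/-
JT3 / T2-lite, part 1c: the coset operator preserves the characters killing the parabolic and the
elliptic elements of `Γ₀(N)` (`tr² ≤ 4`), hence descends to `H = Γ₀(N)^ab / (par, ell)`:

* `t2e_prod_eq_one_of_orbits` : a product over a finite set vanishes if it vanishes on every cycle
  of a permutation;
* `t2e_trace_pow_sq_le` : `tr(γ)² ≤ 4 ⟹ tr(γ^r)² ≤ 4` in `SL(2, ℤ)`;
* `t2e_T_parEll`, `t2e_Tadd_parEll` : `χ` kills par/ell `⟹ T_p χ` kills par/ell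
  [over a `⟨γ⟩`-orbit `{x, x⋆γ, …}` of length `r` in `ℙ¹(𝔽_p)` the cocycle multiplies to
  `c_x(γ^r) = α_x γ^r α_x⁻¹`, which has the trace of `γ^r`];
* `t2e_T_mem_gw_X` : `T_p` preserves the group `gw_X N n` of T1;
* `t2e_TH hpN : gh_H N →+ gh_H N` : the Hecke operator on `H` (a transfer-type map), with
  `ψ ∘ T_H ∘ mk = T_p (ψ ∘ mk)` for every `ψ : H → A`.
Prefix `t2e_`.
-/
import Mathlib
import Fermat.Agent.JT3.T2.Coset
import Fermat.Agent.JT3.Gateway.Homology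
import Fermat.Agent.JT3.Gateway.CharMap

set_option autoImplicit false

noncomputable section

open CongruenceSubgroup Matrix.SpecialLinearGroup Function
open P2MW.S_ModularForm_heckeT_slash_eq_self_of_mem_Gamma0.ModularForm.HeckeSlashInvariance
open scoped MatrixGroups

namespace Fermat.Agent.JT3

/-! ### Products over the cycles of a permutation -/

theorem t2e_prod_eq_one_of_orbits {X M : Type*} [Fintype X] [CommMonoid M]
    (σ : Equiv.Perm X) (g : X → M)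
    (h : ∀ x : X, ∀ r : ℕ, 0 < r → (σ ^ r) x = x →
      ∏ i ∈ Finset.range r, g ((σ ^ i) x) = 1) : ∏ x, g x = 1 := by
  classical
  refine Finset.prod_cancels_of_partition_cancels (Equiv.Perm.SameCycle.setoid σ) ?_
  intro x₀ _
  set r := minimalPeriod σ x₀ with hr
  have hper : x₀ ∈ periodicPts σ := by
    refine mk_mem_periodicPts (orderOf_pos σ) ?_
    show σ^[orderOf σ] x₀ = x₀
    rw [← Equiv.Perm.coe_pow, pow_orderOf_eq_one]
    rfl
  have hr0 : 0 < r := minimalPeriod_pos_of_mem_periodicPts hper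
  have hpow : ∀ i : ℕ, (σ ^ i) x₀ = σ^[i] x₀ := fun i => by rw [Equiv.Perm.coe_pow]
  have hset : (Finset.univ.filter fun y => (Equiv.Perm.SameCycle.setoid σ) y x₀)
      = (Finset.range r).image fun i => (σ ^ i) x₀ := by
    ext y
    simp only [Finset.mem_filter, Finset.mem_univ, true_and, Finset.mem_image, Finset.mem_range]
    constructor
    · intro hy
      have hsc : Equiv.Perm.SameCycle σ x₀ y := Equiv.Perm.SameCycle.symm hy
      obtain ⟨i, hi⟩ := hsc.exists_nat_pow_eq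
      refine ⟨i % r, Nat.mod_lt _ hr0, ?_⟩
      rw [hpow, iterate_mod_minimalPeriod_eq, ← hpow, hi]
    · rintro ⟨i, -, rfl⟩
      have h1 : Equiv.Perm.SameCycle σ x₀ ((σ ^ i) x₀) := ⟨(i : ℤ), by simp⟩
      exact h1.symm
  rw [hset, Finset.prod_image]
  · refine h x₀ r hr0 ?_
    rw [hpow, iterate_minimalPeriod]
  · intro i hi j hj hij
    simp only [hpow] at hij
    exact iterate_injOn_Iio_minimalPeriod (by simpa using hi) (by simpa using hj) hij

/-! ### Traces of powers in `SL(2, ℤ)` -/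

/-- the trace sequence `t_r = tr(γ^r)` satisfies `t_{r+2} = t t_{r+1} - t_r` -/
theorem t2e_trace_rec (γ : SL(2, ℤ)) (r : ℕ) :
    ((γ ^ (r + 2) : SL(2, ℤ)) : Matrix (Fin 2) (Fin 2) ℤ).trace =
      (γ : Matrix (Fin 2) (Fin 2) ℤ).trace *
          ((γ ^ (r + 1) : SL(2, ℤ)) : Matrix (Fin 2) (Fin 2) ℤ).trace
        - ((γ ^ r : SL(2, ℤ)) : Matrix (Fin 2) (Fin 2) ℤ).trace := by
  have h2 := gh_sq_eq γ _ (Matrix.trace_fin_two (γ : Matrix (Fin 2) (Fin 2) ℤ)).symm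
  have h3 : ((γ ^ (r + 2) : SL(2, ℤ)) : Matrix (Fin 2) (Fin 2) ℤ) =
      (γ : Matrix (Fin 2) (Fin 2) ℤ).trace •
          ((γ ^ (r + 1) : SL(2, ℤ)) : Matrix (Fin 2) (Fin 2) ℤ)
        - ((γ ^ r : SL(2, ℤ)) : Matrix (Fin 2) (Fin 2) ℤ) := by
    simp only [Matrix.SpecialLinearGroup.coe_pow]
    rw [pow_add, pow_two, h2, mul_sub, mul_one, mul_smul_comm, ← pow_succ]
  rw [h3, Matrix.trace_sub, Matrix.trace_smul, smul_eq_mul]

/-- powers of parabolic / elliptic elements are parabolic / elliptic (or `±1`) -/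
theorem t2e_trace_pow_sq_le (γ : SL(2, ℤ)) (h : (γ : Matrix (Fin 2) (Fin 2) ℤ).trace ^ 2 ≤ 4)
    (r : ℕ) : ((γ ^ r : SL(2, ℤ)) : Matrix (Fin 2) (Fin 2) ℤ).trace ^ 2 ≤ 4 := by
  set t := (γ : Matrix (Fin 2) (Fin 2) ℤ).trace with ht
  set T : ℕ → ℤ := fun r => ((γ ^ r : SL(2, ℤ)) : Matrix (Fin 2) (Fin 2) ℤ).trace with hT
  have hrec : ∀ r, T (r + 2) = t * T (r + 1) - T r := fun r => t2e_trace_rec γ r
  have h0 : T 0 = 2 := by simp [hT, Matrix.trace_fin_two]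
  have h1 : T 1 = t := by simp [hT, ht]
  have key : ∀ r, T (r + 1) ^ 2 - t * T (r + 1) * T r + T r ^ 2 = 4 - t ^ 2 ∧ T r ^ 2 ≤ 4 ∧
      T (r + 1) ^ 2 ≤ 4 := by
    intro r
    induction r with
    | zero =>
      refine ⟨by rw [h0, h1]; ring, by rw [h0]; norm_num, by rw [h1]; exact h⟩
    | succ r ih =>
      obtain ⟨hinv, hb0, hb1⟩ := ih
      have hinv' : T (r + 2) ^ 2 - t * T (r + 2) * T (r + 1) + T (r + 1) ^ 2 = 4 - t ^ 2 := by
        rw [hrec]; linear_combination hinv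
      refine ⟨hinv', hb1, ?_⟩
      have hsq : (2 * T (r + 1) - t * T (r + 2)) ^ 2 + (4 - t ^ 2) * T (r + 2) ^ 2
          = 4 * (4 - t ^ 2) := by linear_combination 4 * hinv'
      rcases lt_or_eq_of_le h with hlt | heq
      · by_contra hcon
        push Not at hcon
        nlinarith [sq_nonneg (2 * T (r + 1) - t * T (r + 2))]
      · have hz : (2 * T (r + 1) - t * T (r + 2)) ^ 2 = 0 := by
          rw [heq] at hsq; linarith
        have hz' : 2 * T (r + 1) = t * T (r + 2) := by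
          have := pow_eq_zero_iff (two_ne_zero) |>.mp hz
          linarith
        have : 4 * T (r + 2) ^ 2 = 4 * T (r + 1) ^ 2 := by
          have h4 : (t * T (r + 2)) ^ 2 = (2 * T (r + 1)) ^ 2 := by rw [hz']
          rw [mul_pow, heq] at h4
          linarith
        linarith
  exact (key r).2.1

variable {N : ℕ} {p : ℕ} [Fact p.Prime]

theorem t2e_parEll_pow (γ : Gamma0 N) (h : gh_IsParEll N γ) (r : ℕ) : gh_IsParEll N (γ ^ r) := by
  unfold gh_IsParEll at h ⊢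
  rw [SubgroupClass.coe_pow]
  exact t2e_trace_pow_sq_le _ h r

/-! ### The cocycle along a cycle -/

theorem t2e_perm_pow (γ : Gamma0 N) (i : ℕ) (x : OnePoint (ZMod p)) :
    ((t2c_perm ((γ : Gamma0 N) : SL(2, ℤ))) ^ i) x = t2c_act (((γ ^ i : Gamma0 N)) : SL(2, ℤ)) x := by
  induction i with
  | zero => simp [t2c_act_one]
  | succ i ih =>
    rw [pow_succ', Equiv.Perm.mul_apply, ih, t2c_perm_apply, ← t2c_act_mul, ← Subgroup.coe_mul,
      ← pow_succ]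

theorem t2e_coc_pow (hpN : ¬ p ∣ N) {M : Type*} [CommMonoid M] (χ : Gamma0 N →* M)
    (x : OnePoint (ZMod p)) (γ : Gamma0 N) (r : ℕ) :
    χ (t2c_coc hpN x (γ ^ r)) =
      ∏ i ∈ Finset.range r,
        χ (t2c_coc hpN (((t2c_perm ((γ : Gamma0 N) : SL(2, ℤ))) ^ i) x) γ) := by
  induction r with
  | zero => simp [t2c_coc_one]
  | succ r ih =>
    rw [pow_succ, t2c_coc_mul, map_mul, ih, Finset.prod_range_succ, t2e_perm_pow]

/-- the cocycle at a fixed point is conjugate to the element: same trace -/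
theorem t2e_trace_coc (hpN : ¬ p ∣ N) (x : OnePoint (ZMod p)) (γ : Gamma0 N)
    (hfix : t2c_act ((γ : Gamma0 N) : SL(2, ℤ)) x = x) :
    (((t2c_coc hpN x γ : Gamma0 N) : SL(2, ℤ)) : Matrix (Fin 2) (Fin 2) ℤ).trace =
      (((γ : Gamma0 N) : SL(2, ℤ)) : Matrix (Fin 2) (Fin 2) ℤ).trace := by
  have h := t2c_coc_spec hpN x γ
  rw [hfix] at h
  -- in `GL(2, ℝ)`: `c = α γ α⁻¹`
  have h2 : mapGL ℝ ((t2c_coc hpN x γ : Gamma0 N) : SL(2, ℤ)) =
      heckeRep p x * mapGL ℝ ((γ : Gamma0 N) : SL(2, ℤ)) * (heckeRep p x)⁻¹ := by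
    rw [h, mul_assoc, mul_inv_cancel, mul_one]
  have h3 := congrArg (fun g : GL (Fin 2) ℝ => (g : Matrix (Fin 2) (Fin 2) ℝ).trace) h2
  simp only [Units.val_mul] at h3
  rw [Matrix.trace_mul_cycle, ← Units.val_mul, inv_mul_cancel, Units.val_one, one_mul] at h3
  have hcast : ∀ g : SL(2, ℤ), ((mapGL ℝ g : GL (Fin 2) ℝ) : Matrix (Fin 2) (Fin 2) ℝ).trace =
      (((g : Matrix (Fin 2) (Fin 2) ℤ).trace : ℤ) : ℝ) := by
    intro g
    simp [Matrix.trace_fin_two]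
  rw [hcast, hcast] at h3
  exact_mod_cast h3

/-! ### `T_p` preserves the characters killing the parabolic and the elliptic elements -/

theorem t2e_T_parEll (hpN : ¬ p ∣ N) {M : Type*} [CommMonoid M] (χ : Gamma0 N →* M)
    (hχ : ∀ γ : Gamma0 N, gh_IsParEll N γ → χ γ = 1) (γ : Gamma0 N) (hγ : gh_IsParEll N γ) :
    t2c_T hpN χ γ = 1 := by
  rw [t2c_T_apply]
  refine t2e_prod_eq_one_of_orbits (t2c_perm ((γ : Gamma0 N) : SL(2, ℤ)))
    (fun x => χ (t2c_coc hpN x γ)) ?_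
  intro x r _ hfix
  rw [← t2e_coc_pow]
  apply hχ
  have hfix' : t2c_act (((γ ^ r : Gamma0 N)) : SL(2, ℤ)) x = x := by
    rw [← t2e_perm_pow]; exact hfix
  unfold gh_IsParEll
  rw [t2e_trace_coc hpN x (γ ^ r) hfix']
  exact t2e_parEll_pow γ hγ r

theorem t2e_Tadd_parEll (hpN : ¬ p ∣ N) {A : Type*} [AddCommMonoid A]
    (ψ : Additive (Gamma0 N) →+ A)
    (hψ : ∀ γ : Gamma0 N, gh_IsParEll N γ → ψ (Additive.ofMul γ) = 0) (γ : Gamma0 N)
    (hγ : gh_IsParEll N γ) : t2c_Tadd hpN ψ (Additive.ofMul γ) = 0 := by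
  have h := t2e_T_parEll hpN (AddMonoidHom.toMultiplicativeRight ψ)
    (fun γ hγ => by
      show Multiplicative.ofAdd (ψ (Additive.ofMul γ)) = 1
      rw [hψ γ hγ]; rfl) γ hγ
  rw [t2c_T_apply] at h
  rw [t2c_Tadd_apply]
  have h2 : Multiplicative.ofAdd (∑ x : OnePoint (ZMod p), ψ (Additive.ofMul (t2c_coc hpN x γ)))
      = 1 := by
    rw [ofAdd_sum]
    exact h
  exact h2

theorem t2e_Tadd_mem_parEllHoms (hpN : ¬ p ∣ N) {A : Type*} [AddCommGroup A]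
    {ψ : Additive (Gamma0 N) →+ A} (hψ : ψ ∈ gh_parEllHoms N A) :
    t2c_Tadd hpN ψ ∈ gh_parEllHoms N A :=
  fun γ hγ => t2e_Tadd_parEll hpN ψ hψ γ hγ

/-- `T_p` preserves the unramified characters of exponent `n` of T1 -/
theorem t2e_T_mem_gw_X (hpN : ¬ p ∣ N) {n : ℕ} {χ : Gamma0 N →* ℂˣ} (hχ : χ ∈ gw_X N n) :
    t2c_T hpN χ ∈ gw_X N n := by
  obtain ⟨h1, h2⟩ := hχ
  refine ⟨?_, fun γ hγ => t2e_T_parEll hpN χ h2 γ hγ⟩
  rw [← map_pow (t2c_T hpN) χ n, h1, map_one]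

/-! ### The Hecke operator on `H` -/

/-- the Hecke operator `T_p` on `H = Γ₀(N)^ab / (par, ell)`: `[γ] ↦ ∑_x [c_x(γ)]` -/
def t2e_TH (hpN : ¬ p ∣ N) : gh_H N →+ gh_H N :=
  gh_lift (t2c_Tadd hpN (gh_mk N))
    (fun γ hγ => t2e_Tadd_parEll hpN (gh_mk N) (fun γ' hγ' => gh_mk_parEll N γ' hγ') γ hγ)

theorem t2e_TH_mk (hpN : ¬ p ∣ N) (γ : Gamma0 N) :
    t2e_TH hpN (gh_mk N (Additive.ofMul γ)) =
      ∑ x : OnePoint (ZMod p), gh_mk N (Additive.ofMul (t2c_coc hpN x γ)) := by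
  rw [t2e_TH, gh_lift_mk, t2c_Tadd_apply]

/-- `ψ ∘ T_H ∘ mk = T_p (ψ ∘ mk)` for every `ψ : H → A` -/
theorem t2e_comp_TH (hpN : ¬ p ∣ N) {A : Type*} [AddCommGroup A] (ψ : gh_H N →+ A) :
    (ψ.comp (t2e_TH hpN)).comp (gh_mk N) = t2c_Tadd hpN (ψ.comp (gh_mk N)) := by
  rw [t2c_Tadd_comp]
  refine AddMonoidHom.ext fun γ => ?_
  rw [AddMonoidHom.comp_apply, AddMonoidHom.comp_apply, AddMonoidHom.comp_apply, t2e_TH,
    gh_lift_mk]

end Fermat.Agent.JT3
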