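/-
JT3 / T2-lite: the coset operators `T_p`, `T_q` (`p, q ∤ N` primes) on `Hom(Γ₀(N), M)` commute, for
every commutative coefficient monoid `M` (prefix `t2k_`).

* `t2k_prod_eq` : abstract comparison of two "coset systems" in a group `G ⊇ Γ`: if the
  representatives `r x` and `s (σ x)` are `Γ`-equivalent and the cosets `Γ s y` are pairwise
  distinct, the two operators `χ ↦ ∏_x χ(c_x γ)` coincide (telescoping).
* the product systems `β_y α_x` and `α_x β_y` (`α = heckeRep p`, `β = heckeRep q`) consist of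
  `(p+1)(q+1)` upper triangular matrices of determinant `p q`; for `p ≠ q` they are pairwise
  `SL(2,ℤ)`-inequivalent and match up by integer translations.
* `t2k_T_comm`, `t2k_Tadd_comm`, `t2k_TH_comm`.
-/
import Mathlib
import Fermat.Agent.JT3.T2.ParEll

set_option autoImplicit false
set_option linter.unusedSimpArgs false
set_option linter.style.haveILetI false

noncomputable section

open CongruenceSubgroup Matrix.SpecialLinearGroup Function
open P2MW.S_ModularForm_heckeT_slash_eq_self_of_mem_Gamma0.ModularForm.HeckeSlashInvariance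
open scoped MatrixGroups
open OnePoint

namespace Fermat.Agent.JT3

/-! ### Abstract comparison of coset systems -/

section abstract

variable {G Γ : Type*} [Group G] [Group Γ] (ι : Γ →* G)

/-- if the representatives of the first system are separated, a matching is injective -/
theorem t2k_match_injective {X Y : Type*} (r : X → G) (s : Y → G)
    (hsep : ∀ x x' (δ : Γ), r x = ι δ * r x' → x = x')
    (σ : X → Y) (τ : X → Γ) (hτ : ∀ x, r x = ι (τ x) * s (σ x)) : Function.Injective σ := by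
  intro x x' h
  apply hsep x x' (τ x * (τ x')⁻¹)
  rw [hτ x, hτ x', h, map_mul, map_inv, mul_assoc, inv_mul_cancel_left]

/-- **comparison of two coset systems** with `Γ`-equivalent representatives -/
theorem t2k_prod_eq {X Y M : Type*} [Fintype X] [Fintype Y] [CommMonoid M]
    (r : X → G) (s : Y → G) (actX : Γ → Equiv.Perm X) (actY : Γ → Y → Y)
    (cX : X → Γ → Γ) (cY : Y → Γ → Γ)
    (hX : ∀ x γ, r x * ι γ = ι (cX x γ) * r (actX γ x))
    (hY : ∀ y γ, s y * ι γ = ι (cY y γ) * s (actY γ y))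
    (hι : Function.Injective ι)
    (hsep : ∀ y y' (δ : Γ), s y = ι δ * s y' → y = y')
    (σ : X → Y) (hσ : Function.Bijective σ) (τ : X → Γ) (hτ : ∀ x, r x = ι (τ x) * s (σ x))
    (χ : Γ →* M) (γ : Γ) :
    ∏ x, χ (cX x γ) = ∏ y, χ (cY y γ) := by
  -- the matching intertwines the actions and the cocycles
  have key : ∀ x, σ (actX γ x) = actY γ (σ x) ∧
      cX x γ * τ (actX γ x) = τ x * cY (σ x) γ := by
    intro x
    have h1 : ι (cX x γ * τ (actX γ x)) * s (σ (actX γ x)) =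
        ι (τ x * cY (σ x) γ) * s (actY γ (σ x)) := by
      rw [map_mul, map_mul, mul_assoc, ← hτ, ← hX, hτ x, mul_assoc, hY, ← mul_assoc]
    have h2 : s (σ (actX γ x)) =
        ι ((cX x γ * τ (actX γ x))⁻¹ * (τ x * cY (σ x) γ)) * s (actY γ (σ x)) := by
      rw [map_mul, map_inv, mul_assoc, ← h1, inv_mul_cancel_left]
    have h3 := hsep _ _ _ h2
    refine ⟨h3, ?_⟩
    rw [h3] at h1
    exact hι (mul_right_cancel h1)
  have hc : ∀ x, χ (cX x γ) = χ (τ x) * χ (cY (σ x) γ) * χ ((τ (actX γ x))⁻¹) := by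
    intro x
    rw [← map_mul, ← map_mul, ← (key x).2, mul_inv_cancel_right]
  rw [Finset.prod_congr rfl fun x _ => hc x, Finset.prod_mul_distrib, Finset.prod_mul_distrib,
    Equiv.prod_comp (actX γ) fun x => χ ((τ x)⁻¹)]
  have h4 : (∏ x, χ (τ x)) * ∏ x, χ ((τ x)⁻¹) = 1 := by
    rw [← Finset.prod_mul_distrib]
    refine Finset.prod_eq_one fun x _ => ?_
    rw [← map_mul, mul_inv_cancel, map_one]
  rw [mul_right_comm, h4, one_mul]
  exact (Equiv.ofBijective σ hσ).prod_comp fun y => χ (cY y γ)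

end abstract

/-! ### The concrete systems -/

/-- the upper left entry of `heckeRep p x` -/
def t2k_a (p : ℕ) (x : OnePoint (ZMod p)) : ℕ := x.elim p fun _ => 1
/-- the upper right entry of `heckeRep p x` -/
def t2k_b (p : ℕ) (x : OnePoint (ZMod p)) : ℕ := x.elim 0 fun j => j.val
/-- the lower right entry of `heckeRep p x` -/
def t2k_d (p : ℕ) (x : OnePoint (ZMod p)) : ℕ := x.elim 1 fun _ => p

theorem t2k_val_heckeRep {p : ℕ} (hp : p ≠ 0) (x : OnePoint (ZMod p)) :
    ((heckeRep p x : GL (Fin 2) ℝ) : Matrix (Fin 2) (Fin 2) ℝ) =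
      !![(t2k_a p x : ℝ), (t2k_b p x : ℝ); 0, (t2k_d p x : ℝ)] := by
  induction x using OnePoint.rec with
  | infty =>
    rw [heckeRep_infty, ModularForm.val_heckeDiagMatrix hp]
    simp [t2k_a, t2k_b, t2k_d]
  | coe j =>
    rw [heckeRep_coe, ModularForm.val_heckeMatrix hp]
    simp [t2k_a, t2k_b, t2k_d]

/-- the matrix of a product `heckeRep q y * heckeRep p x` -/
theorem t2k_val_mul {p q : ℕ} (hp : p ≠ 0) (hq : q ≠ 0) (x : OnePoint (ZMod p))
    (y : OnePoint (ZMod q)) :
    ((heckeRep q y * heckeRep p x : GL (Fin 2) ℝ) : Matrix (Fin 2) (Fin 2) ℝ) =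
      !![((t2k_a q y * t2k_a p x : ℕ) : ℝ), ((t2k_a q y * t2k_b p x + t2k_b q y * t2k_d p x : ℕ) : ℝ);
        0, ((t2k_d q y * t2k_d p x : ℕ) : ℝ)] := by
  rw [Matrix.GeneralLinearGroup.coe_mul, t2k_val_heckeRep hp, t2k_val_heckeRep hq]
  ext i j
  fin_cases i <;> fin_cases j <;> simp [Matrix.mul_apply, Fin.sum_univ_two]

/-- the integer translation `[[1, m], [0, 1]]` -/
def t2k_trans (m : ℤ) : SL(2, ℤ) := ⟨!![1, m; 0, 1], by simp [Matrix.det_fin_two_of]⟩

theorem t2k_trans_mem (N : ℕ) (m : ℤ) : t2k_trans m ∈ Gamma0 N := by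
  rw [Gamma0_mem]
  simp [t2k_trans]

theorem t2k_trans_00 (m : ℤ) : t2k_trans m 0 0 = 1 := rfl
theorem t2k_trans_01 (m : ℤ) : t2k_trans m 0 1 = m := rfl
theorem t2k_trans_10 (m : ℤ) : t2k_trans m 1 0 = 0 := rfl
theorem t2k_trans_11 (m : ℤ) : t2k_trans m 1 1 = 1 := rfl

/-- upper triangular matrices differing by a translation -/
theorem t2k_eq_trans_mul {A B D A' B' D' : ℕ} (m : ℤ) (hA : A = A') (hD : D = D')
    (hB : (B : ℤ) = B' + m * D') (U U' : GL (Fin 2) ℝ)
    (hU : (U : Matrix (Fin 2) (Fin 2) ℝ) = !![(A : ℝ), (B : ℝ); 0, (D : ℝ)])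
    (hU' : (U' : Matrix (Fin 2) (Fin 2) ℝ) = !![(A' : ℝ), (B' : ℝ); 0, (D' : ℝ)]) :
    U = mapGL ℝ (t2k_trans m) * U' := by
  subst hA hD
  apply Matrix.GeneralLinearGroup.ext
  intro i j
  rw [Matrix.GeneralLinearGroup.coe_mul, hU, hU']
  have hB' : (B : ℝ) = B' + m * D := by exact_mod_cast hB
  fin_cases i <;> fin_cases j <;>
    simp [Matrix.mul_apply, Fin.sum_univ_two, t2k_trans_00, t2k_trans_01, t2k_trans_10,
      t2k_trans_11, hB']

/-- two upper triangular matrices with positive integral entries in the same `SL(2,ℤ)`-coset -/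
theorem t2k_tri_sep {a b d a' b' d' : ℕ} (ha : 0 < a) (ha' : 0 < a') (_hd' : 0 < d')
    (δ : SL(2, ℤ)) (U U' : GL (Fin 2) ℝ)
    (hU : (U : Matrix (Fin 2) (Fin 2) ℝ) = !![(a : ℝ), (b : ℝ); 0, (d : ℝ)])
    (hU' : (U' : Matrix (Fin 2) (Fin 2) ℝ) = !![(a' : ℝ), (b' : ℝ); 0, (d' : ℝ)])
    (h : U = mapGL ℝ δ * U') :
    a = a' ∧ d = d' ∧ (d : ℤ) ∣ (b : ℤ) - b' := by
  have hm : (U : Matrix (Fin 2) (Fin 2) ℝ) =
      (mapGL ℝ δ : Matrix (Fin 2) (Fin 2) ℝ) * (U' : Matrix (Fin 2) (Fin 2) ℝ) := by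
    rw [h]; rfl
  rw [hU, hU'] at hm
  have e00 := congrFun (congrFun hm 0) 0
  have e01 := congrFun (congrFun hm 0) 1
  have e10 := congrFun (congrFun hm 1) 0
  have e11 := congrFun (congrFun hm 1) 1
  simp [Matrix.mul_apply, Fin.sum_univ_two] at e00 e01 e10 e11
  have h10 : (δ 1 0 : ℤ) = 0 := by
    rcases e10 with h1 | h1
    · exact h1
    · omega
  have hdet := det_eq δ
  rw [h10, mul_zero, sub_zero] at hdet
  have e00' : (a : ℤ) = δ 0 0 * a' := by exact_mod_cast e00
  have e01' : (b : ℤ) = δ 0 0 * b' + δ 0 1 * d' := by exact_mod_cast e01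
  have e11' : (d : ℤ) = δ 1 0 * b' + δ 1 1 * d' := by exact_mod_cast e11
  rw [h10, zero_mul, zero_add] at e11'
  have hpos : 0 < δ 0 0 := by
    by_contra hneg
    rw [not_lt] at hneg
    have : (a : ℤ) ≤ 0 := by
      rw [e00']
      exact mul_nonpos_of_nonpos_of_nonneg hneg (by positivity)
    omega
  have h00 : δ 0 0 = 1 := by
    rcases Int.eq_one_or_neg_one_of_mul_eq_one hdet with h1 | h1
    · exact h1
    · omega
  have h11 : δ 1 1 = 1 := by
    rw [h00, one_mul] at hdet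
    exact hdet
  rw [h00, one_mul] at e00' e01'
  rw [h11, one_mul] at e11'
  refine ⟨by exact_mod_cast e00', by exact_mod_cast e11', ?_⟩
  rw [e01', e11']
  exact ⟨δ 0 1, by ring⟩

@[simp] theorem t2k_a_infty (p : ℕ) : t2k_a p ∞ = p := rfl
@[simp] theorem t2k_a_coe (p : ℕ) (j : ZMod p) : t2k_a p (j : OnePoint (ZMod p)) = 1 := rfl
@[simp] theorem t2k_b_infty (p : ℕ) : t2k_b p ∞ = 0 := rfl
@[simp] theorem t2k_b_coe (p : ℕ) (j : ZMod p) : t2k_b p (j : OnePoint (ZMod p)) = j.val := rfl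
@[simp] theorem t2k_d_infty (p : ℕ) : t2k_d p ∞ = 1 := rfl
@[simp] theorem t2k_d_coe (p : ℕ) (j : ZMod p) : t2k_d p (j : OnePoint (ZMod p)) = p := rfl

section sep

variable {p q : ℕ} [Fact p.Prime] [Fact q.Prime]

theorem t2k_natCast_ne_zero (hpq : p ≠ q) : ((q : ℕ) : ZMod p) ≠ 0 := by
  rw [Ne, ZMod.natCast_eq_zero_iff]
  intro h
  exact hpq ((Nat.prime_dvd_prime_iff_eq Fact.out Fact.out).mp h)

/-- `ZMod` elements with congruent values are equal -/
theorem t2k_eq_of_dvd {i i' : ZMod p} (h : (p : ℤ) ∣ (i.val : ℤ) - i'.val) : i = i' := by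
  have h1 := (ZMod.intCast_zmod_eq_zero_iff_dvd _ p).mpr h
  push_cast at h1
  rw [ZMod.natCast_zmod_val, ZMod.natCast_zmod_val, sub_eq_zero] at h1
  exact h1

/-- **the `(p+1)(q+1)` matrices `β_y α_x` are pairwise `SL(2,ℤ)`-inequivalent** -/
theorem t2k_sep (hpq : p ≠ q) (x x' : OnePoint (ZMod p)) (y y' : OnePoint (ZMod q))
    (δ : SL(2, ℤ))
    (h : heckeRep q y * heckeRep p x = mapGL ℝ δ * (heckeRep q y' * heckeRep p x')) :
    x = x' ∧ y = y' := by
  have hp : p.Prime := Fact.out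
  have hq : q.Prime := Fact.out
  have hp2 := hp.two_le
  have hq2 := hq.two_le
  have hapos : ∀ (x : OnePoint (ZMod p)) (y : OnePoint (ZMod q)), 0 < t2k_a q y * t2k_a p x := by
    intro x y
    induction x using OnePoint.rec <;> induction y using OnePoint.rec <;> simp <;> omega
  have hdpos : ∀ (x : OnePoint (ZMod p)) (y : OnePoint (ZMod q)), 0 < t2k_d q y * t2k_d p x := by
    intro x y
    induction x using OnePoint.rec <;> induction y using OnePoint.rec <;> simp <;> omega
  obtain ⟨hA, hD, hB⟩ := t2k_tri_sep (hapos x y) (hapos x' y') (hdpos x' y') δ _ _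
    (t2k_val_mul hp.ne_zero hq.ne_zero x y) (t2k_val_mul hp.ne_zero hq.ne_zero x' y') h
  have h1 : 2 * q ≤ q * p := by nlinarith
  have h2 : 2 * p ≤ q * p := by nlinarith
  induction x using OnePoint.rec with
  | infty =>
    induction x' using OnePoint.rec with
    | infty =>
      induction y using OnePoint.rec with
      | infty =>
        induction y' using OnePoint.rec with
        | infty => exact ⟨rfl, rfl⟩
        | coe j' => exfalso; simp at hA; omega
      | coe j =>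
        induction y' using OnePoint.rec with
        | infty => exfalso; simp at hA; omega
        | coe j' =>
          refine ⟨rfl, ?_⟩
          simp only [t2k_a_infty, t2k_a_coe, t2k_b_infty, t2k_b_coe, t2k_d_infty, t2k_d_coe,
            mul_one, one_mul, mul_zero, zero_add] at hB
          rw [t2k_eq_of_dvd hB]
    | coe i' =>
      exfalso
      induction y using OnePoint.rec <;> induction y' using OnePoint.rec <;> simp at hA <;> omega
  | coe i =>
    induction x' using OnePoint.rec with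
    | infty =>
      exfalso
      induction y using OnePoint.rec <;> induction y' using OnePoint.rec <;> simp at hA <;> omega
    | coe i' =>
      induction y using OnePoint.rec with
      | infty =>
        induction y' using OnePoint.rec with
        | infty =>
          refine ⟨?_, rfl⟩
          simp only [t2k_a_infty, t2k_a_coe, t2k_b_infty, t2k_b_coe, t2k_d_infty, t2k_d_coe,
            mul_one, one_mul, mul_zero, zero_mul, add_zero, zero_add] at hB
          have h3 := (ZMod.intCast_zmod_eq_zero_iff_dvd _ p).mpr hB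
          push_cast at h3
          rw [ZMod.natCast_zmod_val, ZMod.natCast_zmod_val, ← mul_sub, mul_eq_zero] at h3
          rcases h3 with h3 | h3
          · exact absurd h3 (t2k_natCast_ne_zero hpq)
          · rw [sub_eq_zero.mp h3]
        | coe j' => exfalso; simp at hA; omega
      | coe j =>
        induction y' using OnePoint.rec with
        | infty => exfalso; simp at hA; omega
        | coe j' =>
          simp only [t2k_a_infty, t2k_a_coe, t2k_b_infty, t2k_b_coe, t2k_d_infty, t2k_d_coe,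
            mul_one, one_mul, mul_zero, zero_mul, add_zero, zero_add] at hB
          obtain ⟨c, hc⟩ := hB
          push_cast at hc
          have hi : i = i' :=
            t2k_eq_of_dvd ⟨q * c - ((j.val : ℤ) - j'.val), by linear_combination hc⟩
          subst hi
          have hp0 : (p : ℤ) ≠ 0 := by exact_mod_cast hp.ne_zero
          have hj : j = j' := by
            apply t2k_eq_of_dvd
            refine ⟨c, ?_⟩
            apply mul_right_cancel₀ hp0
            linear_combination hc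
          rw [hj]
          exact ⟨rfl, rfl⟩

theorem t2k_exists_int {n : ℕ} (a b : ℕ) (h : ((a : ℕ) : ZMod n) = b) :
    ∃ m : ℤ, (a : ℤ) = b + m * n := by
  have h1 := (ZMod.natCast_eq_natCast_iff a b n).mp h
  obtain ⟨c, hc⟩ := (Nat.modEq_iff_dvd).mp h1
  exact ⟨-c, by linear_combination -hc⟩

/-- **matching**: every `β_y α_x` is an integer translate of some `α_x' β_y'` -/
theorem t2k_match (hpq : p ≠ q) (x : OnePoint (ZMod p)) (y : OnePoint (ZMod q)) :
    ∃ (x' : OnePoint (ZMod p)) (y' : OnePoint (ZMod q)) (m : ℤ),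
      heckeRep q y * heckeRep p x =
        mapGL ℝ (t2k_trans m) * (heckeRep p x' * heckeRep q y') := by
  have hp : p.Prime := Fact.out
  have hq : q.Prime := Fact.out
  have hp0 := hp.ne_zero
  have hq0 := hq.ne_zero
  haveI : NeZero p := ⟨hp0⟩
  haveI : NeZero q := ⟨hq0⟩
  induction x using OnePoint.rec with
  | infty =>
    induction y using OnePoint.rec with
    | infty =>
      refine ⟨∞, ∞, 0, ?_⟩
      refine t2k_eq_trans_mul 0 ?_ ?_ ?_ _ _ (t2k_val_mul hp0 hq0 ∞ ∞) (t2k_val_mul hq0 hp0 ∞ ∞)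
      · simp [mul_comm]
      · simp
      · simp
    | coe j =>
      obtain ⟨m, hm⟩ := t2k_exists_int (n := q) j.val (p * (((p : ZMod q)⁻¹ * j).val)) (by
        rw [ZMod.natCast_zmod_val]
        push_cast
        rw [ZMod.natCast_zmod_val, ← mul_assoc, mul_inv_cancel₀ (t2k_natCast_ne_zero hpq.symm),
          one_mul])
      refine ⟨∞, (((p : ZMod q)⁻¹ * j : ZMod q) : OnePoint (ZMod q)), m, ?_⟩
      refine t2k_eq_trans_mul m ?_ ?_ ?_ _ _ (t2k_val_mul hp0 hq0 ∞ _) (t2k_val_mul hq0 hp0 _ ∞)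
      · simp
      · simp
      · simp only [t2k_a_infty, t2k_a_coe, t2k_b_infty, t2k_b_coe, t2k_d_infty, t2k_d_coe,
          mul_one, one_mul, mul_zero, zero_mul, add_zero, zero_add]
        exact hm
  | coe i =>
    induction y using OnePoint.rec with
    | infty =>
      obtain ⟨m, hm⟩ := t2k_exists_int (n := p) (q * i.val) (((q : ZMod p) * i).val) (by
        rw [ZMod.natCast_zmod_val]
        push_cast
        rw [ZMod.natCast_zmod_val])
      refine ⟨(((q : ZMod p) * i : ZMod p) : OnePoint (ZMod p)), ∞, m, ?_⟩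
      refine t2k_eq_trans_mul m ?_ ?_ ?_ _ _ (t2k_val_mul hp0 hq0 _ ∞) (t2k_val_mul hq0 hp0 ∞ _)
      · simp
      · simp
      · simp only [t2k_a_infty, t2k_a_coe, t2k_b_infty, t2k_b_coe, t2k_d_infty, t2k_d_coe,
          mul_one, one_mul, mul_zero, zero_mul, add_zero, zero_add]
        exact hm
    | coe j =>
      set t : ℕ := i.val + j.val * p with ht
      refine ⟨(((t / q : ℕ) : ZMod p) : OnePoint (ZMod p)), (((t : ℕ) : ZMod q) : OnePoint (ZMod q)),
        ((t / q / p : ℕ) : ℤ), ?_⟩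
      refine t2k_eq_trans_mul _ ?_ ?_ ?_ _ _ (t2k_val_mul hp0 hq0 _ _) (t2k_val_mul hq0 hp0 _ _)
      · simp
      · simp [mul_comm]
      · simp only [t2k_a_infty, t2k_a_coe, t2k_b_infty, t2k_b_coe, t2k_d_infty, t2k_d_coe,
          mul_one, one_mul, mul_zero, zero_mul, add_zero, zero_add, ZMod.val_natCast]
        rw [← ht]
        have e1 := Nat.div_add_mod t q
        have e2 := Nat.div_add_mod (t / q) p
        have e1' : (t : ℤ) = q * ((t / q : ℕ) : ℤ) + ((t % q : ℕ) : ℤ) := by exact_mod_cast e1.symm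
        have e2' : ((t / q : ℕ) : ℤ) = p * ((t / q / p : ℕ) : ℤ) + ((t / q % p : ℕ) : ℤ) := by
          exact_mod_cast e2.symm
        push_cast
        push_cast at e1' e2'
        linear_combination e1' + (q : ℤ) * e2'

end sep

/-! ### Commutativity -/

section comm

variable {N p q : ℕ} [Fact p.Prime] [Fact q.Prime]

/-- the embedding of `Γ₀(N)` into `GL(2, ℝ)` -/
def t2k_iota (N : ℕ) : Gamma0 N →* GL (Fin 2) ℝ := (mapGL ℝ).comp (Gamma0 N).subtype

theorem t2k_iota_apply (γ : Gamma0 N) : t2k_iota N γ = mapGL ℝ (γ : SL(2, ℤ)) := rfl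

theorem t2k_iota_injective : Function.Injective (t2k_iota N) := by
  intro γ γ' h
  exact Subtype.ext (mapGL_injective h)

/-- the product system: `β_y α_x γ = c^q_y(c^p_x γ) β_{y'} α_{x'}` -/
theorem t2k_spec (hpN : ¬ p ∣ N) (hqN : ¬ q ∣ N) (x : OnePoint (ZMod p)) (y : OnePoint (ZMod q))
    (γ : Gamma0 N) :
    heckeRep q y * heckeRep p x * t2k_iota N γ =
      t2k_iota N (t2c_coc hqN y (t2c_coc hpN x γ)) *
        (heckeRep q (t2c_act ((t2c_coc hpN x γ : Gamma0 N) : SL(2, ℤ)) y) *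
          heckeRep p (t2c_act (γ : SL(2, ℤ)) x)) := by
  rw [t2k_iota_apply, t2k_iota_apply, mul_assoc, t2c_coc_spec hpN x γ, ← mul_assoc,
    t2c_coc_spec hqN y (t2c_coc hpN x γ), mul_assoc]

/-- the permutation of `ℙ¹(𝔽_p) × ℙ¹(𝔽_q)` attached to `γ` by the product system -/
def t2k_perm (hpN : ¬ p ∣ N) (γ : Gamma0 N) :
    Equiv.Perm (OnePoint (ZMod p) × OnePoint (ZMod q)) :=
  Equiv.prodShear (t2c_perm (γ : SL(2, ℤ)))
    fun x => t2c_perm ((t2c_coc hpN x γ : Gamma0 N) : SL(2, ℤ))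

theorem t2k_perm_apply (hpN : ¬ p ∣ N) (γ : Gamma0 N) (z : OnePoint (ZMod p) × OnePoint (ZMod q)) :
    t2k_perm (q := q) hpN γ z = (t2c_act (γ : SL(2, ℤ)) z.1,
      t2c_act ((t2c_coc hpN z.1 γ : Gamma0 N) : SL(2, ℤ)) z.2) := rfl

theorem t2k_T_comm_apply (hpq : p ≠ q) (hpN : ¬ p ∣ N) (hqN : ¬ q ∣ N) {M : Type*} [CommMonoid M]
    (χ : Gamma0 N →* M) (γ : Gamma0 N) :
    t2c_T hpN (t2c_T hqN χ) γ = t2c_T hqN (t2c_T hpN χ) γ := by
  classical
  -- the matching
  choose fx fy fm hf using fun z : OnePoint (ZMod p) × OnePoint (ZMod q) => t2k_match hpq z.1 z.2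
  set σ : OnePoint (ZMod p) × OnePoint (ZMod q) → OnePoint (ZMod q) × OnePoint (ZMod p) :=
    fun z => (fy z, fx z) with hσ
  set τ : OnePoint (ZMod p) × OnePoint (ZMod q) → Gamma0 N :=
    fun z => ⟨t2k_trans (fm z), t2k_trans_mem N (fm z)⟩ with hτ
  have hmatch : ∀ z : OnePoint (ZMod p) × OnePoint (ZMod q),
      heckeRep q z.2 * heckeRep p z.1 =
        t2k_iota N (τ z) * (heckeRep p (σ z).2 * heckeRep q (σ z).1) := fun z => hf z
  have hinj : Function.Injective σ :=
    t2k_match_injective (t2k_iota N) (fun z => heckeRep q z.2 * heckeRep p z.1)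
      (fun w : OnePoint (ZMod q) × OnePoint (ZMod p) => heckeRep p w.2 * heckeRep q w.1)
      (fun z z' δ h => by
        obtain ⟨h1, h2⟩ := t2k_sep hpq z.1 z'.1 z.2 z'.2 (δ : SL(2, ℤ)) h
        exact Prod.ext h1 h2) σ τ hmatch
  have hbij : Function.Bijective σ := by
    rw [Fintype.bijective_iff_injective_and_card]
    exact ⟨hinj, by rw [Fintype.card_prod, Fintype.card_prod, mul_comm]⟩
  have key := t2k_prod_eq (t2k_iota N)
    (fun z : OnePoint (ZMod p) × OnePoint (ZMod q) => heckeRep q z.2 * heckeRep p z.1)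
    (fun w : OnePoint (ZMod q) × OnePoint (ZMod p) => heckeRep p w.2 * heckeRep q w.1)
    (fun γ => t2k_perm hpN γ)
    (fun γ w => (t2c_act (γ : SL(2, ℤ)) w.1,
      t2c_act ((t2c_coc hqN w.1 γ : Gamma0 N) : SL(2, ℤ)) w.2))
    (fun z γ => t2c_coc hqN z.2 (t2c_coc hpN z.1 γ))
    (fun w γ => t2c_coc hpN w.2 (t2c_coc hqN w.1 γ))
    (fun z γ => t2k_spec hpN hqN z.1 z.2 γ)
    (fun w γ => t2k_spec hqN hpN w.1 w.2 γ)
    t2k_iota_injective
    (fun w w' δ h => by
      obtain ⟨h1, h2⟩ := t2k_sep hpq.symm w.1 w'.1 w.2 w'.2 (δ : SL(2, ℤ)) h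
      exact Prod.ext h1 h2)
    σ hbij τ hmatch χ γ
  rw [t2c_T_apply, t2c_T_apply]
  simp only [t2c_T_apply]
  rw [← Fintype.prod_prod_type' (f := fun x y => χ (t2c_coc hqN y (t2c_coc hpN x γ))),
    ← Fintype.prod_prod_type' (f := fun y x => χ (t2c_coc hpN x (t2c_coc hqN y γ)))]
  exact key

/-- **the coset operators commute** -/
theorem t2k_T_comm (hpN : ¬ p ∣ N) (hqN : ¬ q ∣ N) {M : Type*} [CommMonoid M]
    (χ : Gamma0 N →* M) :
    t2c_T hpN (t2c_T hqN χ) = t2c_T hqN (t2c_T hpN χ) := by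
  by_cases hpq : p = q
  · subst hpq
    rfl
  · exact MonoidHom.ext fun γ => t2k_T_comm_apply hpq hpN hqN χ γ

theorem t2k_T_comp_comm (hpN : ¬ p ∣ N) (hqN : ¬ q ∣ N) {M : Type*} [CommMonoid M] :
    (t2c_T (M := M) hpN).comp (t2c_T hqN) = (t2c_T hqN).comp (t2c_T hpN) :=
  MonoidHom.ext fun χ => t2k_T_comm hpN hqN χ

/-- **the additive coset operators commute** -/
theorem t2k_Tadd_comm (hpN : ¬ p ∣ N) (hqN : ¬ q ∣ N) {A : Type*} [AddCommMonoid A]
    (ψ : Additive (Gamma0 N) →+ A) :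
    t2c_Tadd hpN (t2c_Tadd hqN ψ) = t2c_Tadd hqN (t2c_Tadd hpN ψ) := by
  refine AddMonoidHom.ext fun γ => ?_
  obtain ⟨γ, rfl⟩ := Additive.ofMul.surjective γ
  have h := congrArg Multiplicative.toAdd
    (DFunLike.congr_fun (t2k_T_comm hpN hqN (AddMonoidHom.toMultiplicativeRight ψ)) γ)
  simp only [t2c_T_apply, toAdd_prod] at h
  simp only [t2c_Tadd_apply]
  exact h

theorem t2k_Tadd_comp_comm (hpN : ¬ p ∣ N) (hqN : ¬ q ∣ N) {A : Type*} [AddCommMonoid A] :
    (t2c_Tadd (A := A) hpN).comp (t2c_Tadd hqN) = (t2c_Tadd hqN).comp (t2c_Tadd hpN) :=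
  AddMonoidHom.ext fun ψ => t2k_Tadd_comm hpN hqN ψ

/-- **the Hecke operators on `H = Γ₀(N)^ab / (par, ell)` commute** -/
theorem t2k_TH_comm (hpN : ¬ p ∣ N) (hqN : ¬ q ∣ N) :
    (t2e_TH (N := N) hpN).comp (t2e_TH hqN) = (t2e_TH hqN).comp (t2e_TH hpN) := by
  have h1 : ∀ {r : ℕ} [Fact r.Prime] (hrN : ¬ r ∣ N),
      (t2e_TH (N := N) hrN).comp (gh_mk N) = t2c_Tadd hrN (gh_mk N) := by
    intro r _ hrN
    have := t2e_comp_TH hrN (AddMonoidHom.id (gh_H N))
    rwa [AddMonoidHom.id_comp, AddMonoidHom.id_comp] at this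
  have h2 : ((t2e_TH (N := N) hpN).comp (t2e_TH hqN)).comp (gh_mk N) =
      ((t2e_TH hqN).comp (t2e_TH hpN)).comp (gh_mk N) := by
    rw [t2e_comp_TH hqN (t2e_TH hpN), t2e_comp_TH hpN (t2e_TH hqN), h1 hpN, h1 hqN,
      t2k_Tadd_comm]
  exact gh_hom_ext fun x => DFunLike.congr_fun h2 x

end comm

end Fermat.Agent.JT3

end
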