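/-
JT3 / T2-lite, part 1b: the period map is Hecke equivariant,

  `periodMap N (T_p f) = T_p (periodMap N f)`   (`p ∤ N` prime),

where `T_p` acts on `Hom(Γ₀(N), ℂ)` by the coset operator `t2c_Tadd` of `T2/Coset.lean`.

Proof: if `F` is the primitive of `f` vanishing at `i∞`, then `G(z) = ∑_x F(α_x z)`
(`α_x = heckeRep p x`) is the primitive of `T_p f` vanishing at `i∞`, and
`G(γ z) - G(z) = ∑_x [F(c_x(γ) α_{x⋆γ} z) - F(α_x z)] = ∑_x ψ(c_x(γ))`.
Prefix `t2p_`.
-/
import Mathlib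
import Fermat.Agent.JT3.T2.Coset
import Fermat.Agent.S21.Primitive
import Fermat.Prelude.Def_ModularForm_HeckeOperatorForms

set_option autoImplicit false
set_option linter.unusedSectionVars false

noncomputable section

open UpperHalfPlane hiding I
open Complex Filter Function CongruenceSubgroup ModularCurve ModularCurve.Period ModularForm
open Matrix.SpecialLinearGroup
open scoped Real Manifold Topology MatrixGroups ModularForm
open Fermat.Agent.S21
open P2MW.S_ModularForm_heckeT_slash_eq_self_of_mem_Gamma0.ModularForm.HeckeSlashInvariance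

namespace Fermat.Agent.JT3

variable {N : ℕ} {p : ℕ} [Fact p.Prime]

theorem t2p_p_ne_zero : p ≠ 0 := (Fact.out : p.Prime).ne_zero

/-- the candidate primitive of `T_p f` -/
def t2p_G (p : ℕ) [Fact p.Prime] (F : ℍ → ℂ) (z : ℍ) : ℂ :=
  ∑ x : OnePoint (ZMod p), F (heckeRep p x • z)

/-! ### The action of the representatives on `ℍ` -/

theorem t2p_det_pos (x : OnePoint (ZMod p)) : 0 < ((heckeRep p x).det : ℝ) := by
  induction x using OnePoint.rec with
  | infty => exact det_heckeDiagMatrix_pos p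
  | coe j => exact det_heckeMatrix_pos p j.val

/-- the scaling factor of `α_x`: `α_x z = a_x z + b_x` -/
def t2p_a (p : ℕ) (x : OnePoint (ZMod p)) : ℂ := x.elim (p : ℂ) fun _ => (p : ℂ)⁻¹

/-- the translation part of `α_x` -/
def t2p_b (p : ℕ) (x : OnePoint (ZMod p)) : ℂ := x.elim 0 fun j => (j.val : ℂ) / p

theorem t2p_coe_smul (x : OnePoint (ZMod p)) (z : ℍ) :
    ((heckeRep p x • z : ℍ) : ℂ) = t2p_a p x * z + t2p_b p x := by
  have hp : p ≠ 0 := t2p_p_ne_zero
  induction x using OnePoint.rec with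
  | infty =>
    rw [heckeRep_infty, coe_heckeDiagMatrix_smul hp]
    simp [t2p_a, t2p_b]
  | coe j =>
    rw [heckeRep_coe, coe_heckeMatrix_smul hp]
    simp only [t2p_a, t2p_b, OnePoint.elim_some]
    ring

theorem t2p_a_pos (x : OnePoint (ZMod p)) : ∃ r : ℝ, 0 < r ∧ t2p_a p x = (r : ℂ) := by
  have hp : (0 : ℝ) < p := by exact_mod_cast Nat.pos_of_ne_zero (t2p_p_ne_zero (p := p))
  induction x using OnePoint.rec with
  | infty => exact ⟨p, hp, by simp [t2p_a]⟩
  | coe j => exact ⟨(p : ℝ)⁻¹, inv_pos.mpr hp, by simp [t2p_a]⟩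

theorem t2p_b_real (x : OnePoint (ZMod p)) : ∃ r : ℝ, t2p_b p x = (r : ℂ) := by
  induction x using OnePoint.rec with
  | infty => exact ⟨0, by simp [t2p_b]⟩
  | coe j =>
    refine ⟨(j.val : ℝ) / p, ?_⟩
    show (j.val : ℂ) / p = (((j.val : ℝ) / p : ℝ) : ℂ)
    push_cast
    rfl

theorem t2p_im_smul (x : OnePoint (ZMod p)) :
    ∃ r : ℝ, 0 < r ∧ ∀ z : ℍ, (heckeRep p x • z).im = r * z.im := by
  obtain ⟨r, hr, ha⟩ := t2p_a_pos (p := p) x
  obtain ⟨s, hb⟩ := t2p_b_real (p := p) x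
  refine ⟨r, hr, fun z => ?_⟩
  have h := t2p_coe_smul x z
  rw [ha, hb] at h
  have h2 := congrArg Complex.im h
  simpa using h2

theorem t2p_tendsto_smul (x : OnePoint (ZMod p)) :
    Tendsto (fun z : ℍ => heckeRep p x • z) atImInfty atImInfty := by
  obtain ⟨r, hr, him⟩ := t2p_im_smul (p := p) x
  rw [atImInfty, tendsto_comap_iff]
  have : (UpperHalfPlane.im ∘ fun z : ℍ => heckeRep p x • z) = fun z : ℍ => r * z.im := by
    funext z
    exact him z
  rw [this]
  exact (tendsto_comap).const_mul_atTop hr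

/-- the slash operator of weight `2` of `α_x` multiplies by the scaling factor -/
theorem t2p_slash_apply (f : ℍ → ℂ) (x : OnePoint (ZMod p)) (τ : ℍ) :
    (f ∣[(2 : ℤ)] heckeRep p x) τ = t2p_a p x * f (heckeRep p x • τ) := by
  have hp : p ≠ 0 := t2p_p_ne_zero
  induction x using OnePoint.rec with
  | infty =>
    rw [heckeRep_infty, slash_heckeDiagMatrix_apply 2 hp]
    simp [t2p_a]
  | coe j =>
    rw [heckeRep_coe, slash_heckeMatrix_apply 2 hp]
    simp [t2p_a]

/-! ### The primitive of `T_p f` -/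

theorem t2p_hasDerivAt_term {F f : ℍ → ℂ} (hF : ∀ τ : ℍ, HasDerivAt (F ∘ ofComplex) (f τ) τ)
    (x : OnePoint (ZMod p)) (τ : ℍ) :
    HasDerivAt ((fun z : ℍ => F (heckeRep p x • z)) ∘ ofComplex)
      ((f ∣[(2 : ℤ)] heckeRep p x) τ) τ := by
  rw [t2p_slash_apply]
  -- the affine map
  have haff : HasDerivAt (fun w : ℂ => t2p_a p x * w + t2p_b p x) (t2p_a p x) (τ : ℂ) := by
    simpa using ((hasDerivAt_id (τ : ℂ)).const_mul (t2p_a p x)).add_const (t2p_b p x)
  have hpt : t2p_a p x * (τ : ℂ) + t2p_b p x = ((heckeRep p x • τ : ℍ) : ℂ) :=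
    (t2p_coe_smul x τ).symm
  have hF' : HasDerivAt (F ∘ ofComplex) (f (heckeRep p x • τ))
      (t2p_a p x * (τ : ℂ) + t2p_b p x) := by
    rw [hpt]
    exact hF _
  have hcomp := hF'.comp (τ : ℂ) haff
  rw [mul_comm]
  refine hcomp.congr_of_eventuallyEq ?_
  filter_upwards [isOpen_upperHalfPlaneSet.mem_nhds τ.im_pos] with w hw
  simp only [comp_apply]
  congr 1
  rw [ofComplex_apply_of_im_pos hw]
  apply UpperHalfPlane.ext
  rw [t2p_coe_smul]
  have h2 : 0 < (t2p_a p x * w + t2p_b p x).im := by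
    have := (heckeRep p x • (⟨w, hw⟩ : ℍ)).im_pos
    rw [UpperHalfPlane.im, t2p_coe_smul] at this
    exact this
  rw [ofComplex_apply_of_im_pos h2]

theorem t2p_hasDerivAt_G {F f : ℍ → ℂ} (hF : ∀ τ : ℍ, HasDerivAt (F ∘ ofComplex) (f τ) τ)
    (τ : ℍ) : HasDerivAt (t2p_G p F ∘ ofComplex) (heckeT 2 p f τ) τ := by
  have : NeZero p := ⟨t2p_p_ne_zero⟩
  rw [heckeT_eq_sum_onePoint, Finset.sum_apply]
  have h := HasDerivAt.fun_sum (u := (Finset.univ : Finset (OnePoint (ZMod p))))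
    (A := fun x => (fun z : ℍ => F (heckeRep p x • z)) ∘ ofComplex)
    (A' := fun x => (f ∣[(2 : ℤ)] heckeRep p x) τ) (x := (τ : ℂ))
    fun x _ => t2p_hasDerivAt_term hF x τ
  refine h.congr_of_eventuallyEq (Eventually.of_forall fun w => ?_)
  simp [t2p_G]

theorem t2p_tendsto_G {F : ℍ → ℂ} (hF : Tendsto F atImInfty (𝓝 0)) :
    Tendsto (t2p_G p F) atImInfty (𝓝 0) := by
  have h : Tendsto (fun z : ℍ => ∑ x : OnePoint (ZMod p), F (heckeRep p x • z)) atImInfty
      (𝓝 (∑ _x : OnePoint (ZMod p), (0 : ℂ))) :=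
    tendsto_finsetSum _ fun x _ => hF.comp (t2p_tendsto_smul x)
  have h2 : t2p_G p F = fun z : ℍ => ∑ x : OnePoint (ZMod p), F (heckeRep p x • z) := rfl
  rw [h2]
  simpa using h

/-- uniqueness of the primitive vanishing at `i∞` (only the derivative and the limit matter) -/
theorem t2p_prim_unique [NeZero N] (f : CuspForm (Gamma0 N) 2) {G : ℍ → ℂ}
    (hG : ∀ τ : ℍ, HasDerivAt (G ∘ ofComplex) (f τ) τ) (hG0 : Tendsto G atImInfty (𝓝 0)) :
    G = s21_prim f := by
  have hD : ∀ τ : ℍ, HasDerivAt ((G - s21_prim f) ∘ ofComplex) 0 τ := by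
    intro τ
    have := (hG τ).sub (s21_prim_hasDerivAt f τ)
    rw [sub_self] at this
    exact this
  ext τ
  have hconst : ∀ τ' : ℍ, (G - s21_prim f) τ' = (G - s21_prim f) τ := fun τ' =>
    s21_const_of_hasDerivAt_zero hD τ' τ
  have h1 : Tendsto (G - s21_prim f) atImInfty (𝓝 0) := by
    have := hG0.sub (s21_prim_tendsto f)
    rwa [sub_zero] at this
  have h2 : Tendsto (G - s21_prim f) atImInfty (𝓝 ((G - s21_prim f) τ)) :=
    tendsto_const_nhds.congr fun τ' => (hconst τ').symm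
  have h3 := tendsto_nhds_unique h2 h1
  rw [Pi.sub_apply, sub_eq_zero] at h3
  exact h3

/-! ### Hecke equivariance of the period map -/

variable [NeZero N]

theorem t2p_prim_heckeT (hpN : ¬ p ∣ N) (f : CuspForm (Gamma0 N) 2) :
    s21_prim (CuspForm.heckeTLin 2 (Fact.out : p.Prime) hpN f) = t2p_G p (s21_prim f) :=
  (t2p_prim_unique (CuspForm.heckeTLin 2 (Fact.out : p.Prime) hpN f)
    (fun τ => t2p_hasDerivAt_G (s21_prim_hasDerivAt f) τ)
    (t2p_tendsto_G (s21_prim_tendsto f))).symm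

theorem t2p_smul_smul (hpN : ¬ p ∣ N) (x : OnePoint (ZMod p)) (γ : Gamma0 N) (z : ℍ) :
    heckeRep p x • ((γ : SL(2, ℤ)) • z) =
      ((t2c_coc hpN x γ : Gamma0 N) : SL(2, ℤ)) • (heckeRep p (t2c_act (γ : SL(2, ℤ)) x) • z) := by
  change heckeRep p x • (mapGL ℝ (γ : SL(2, ℤ)) • z) =
    mapGL ℝ ((t2c_coc hpN x γ : Gamma0 N) : SL(2, ℤ)) •
      (heckeRep p (t2c_act (γ : SL(2, ℤ)) x) • z)
  rw [← mul_smul, ← mul_smul, t2c_coc_spec]

/-- **Hecke equivariance of the period map.** -/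
theorem t2p_periodMap_heckeT (hpN : ¬ p ∣ N) (f : CuspForm (Gamma0 N) 2) :
    periodMap N (CuspForm.heckeTLin 2 (Fact.out : p.Prime) hpN f) =
      t2c_Tadd hpN (periodMap N f) := by
  refine AddMonoidHom.ext fun γ => ?_
  obtain ⟨γ, rfl⟩ := Additive.ofMul.surjective γ
  rw [s21_periodMap_apply _ γ UpperHalfPlane.I, t2p_prim_heckeT, t2c_Tadd_apply]
  simp only [t2p_G]
  rw [← Finset.sum_sub_distrib]
  have hterm : ∀ x : OnePoint (ZMod p),
      s21_prim f (heckeRep p x • ((γ : SL(2, ℤ)) • UpperHalfPlane.I)) -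
        s21_prim f (heckeRep p x • UpperHalfPlane.I) =
      periodMap N f (Additive.ofMul (t2c_coc hpN x γ)) +
        (s21_prim f (heckeRep p (t2c_perm (γ : SL(2, ℤ)) x) • UpperHalfPlane.I) -
          s21_prim f (heckeRep p x • UpperHalfPlane.I)) := by
    intro x
    rw [t2p_smul_smul hpN x γ, s21_periodMap_apply f (t2c_coc hpN x γ)
      (heckeRep p (t2c_act (γ : SL(2, ℤ)) x) • UpperHalfPlane.I), t2c_perm_apply]
    ring
  rw [Finset.sum_congr rfl fun x _ => hterm x, Finset.sum_add_distrib, Finset.sum_sub_distrib,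
    Equiv.sum_comp (t2c_perm (γ : SL(2, ℤ)))
      fun x => s21_prim f (heckeRep p x • UpperHalfPlane.I), sub_self, add_zero]

end Fermat.Agent.JT3
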