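/-
JT3 / T2-lite, part 2a: the coset operator `T_p` on `Hom(Γ₀(N), A)` commutes with the involution
`ψ ↦ ψ ∘ (γ ↦ JγJ⁻¹)`, `J = diag(1, -1)` (the prelude's `charInvolution`).

`J · heckeRep p x · J = u_x · heckeRep p (-x)` with `u_x` upper unipotent, hence
`c_{-x}(JγJ) = u_x⁻¹ · J c_x(γ) J · u_{x ⋆ γ}`, and the `u`-terms cancel in the sum over `x`
(because `x ↦ x ⋆ γ` is a permutation).  No hypothesis on `ψ`.
Prefix `t2i_`.
-/
import Mathlib
import Fermat.Prelude.Def_ModularCurve_PeriodHomPair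
import Fermat.Agent.JT3.T2.Coset

set_option autoImplicit false

noncomputable section

open CongruenceSubgroup Matrix.SpecialLinearGroup ModularCurve.Period ModularForm
open P2MW.S_ModularForm_heckeT_slash_eq_self_of_mem_Gamma0.ModularForm.HeckeSlashInvariance
open scoped MatrixGroups OnePoint

namespace Fermat.Agent.JT3

variable {N : ℕ} {p : ℕ} [Fact p.Prime]

/-! ### The matrix `J` -/

/-- `J = diag(1, -1)` -/
def t2i_J : GL (Fin 2) ℝ :=
  Matrix.GeneralLinearGroup.mkOfDetNeZero !![1, 0; 0, -1] (by simp [Matrix.det_fin_two_of])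

theorem t2i_J_val : ((t2i_J : GL (Fin 2) ℝ) : Matrix (Fin 2) (Fin 2) ℝ) = !![1, 0; 0, -1] := rfl

theorem t2i_J_mul_J : t2i_J * t2i_J = 1 := by
  apply Matrix.GeneralLinearGroup.ext
  intro i j
  fin_cases i <;> fin_cases j <;> simp [t2i_J_val, Matrix.mul_apply, Fin.sum_univ_two]

theorem t2i_mapGL_jConj (g : SL(2, ℤ)) : mapGL ℝ (jConjSL g) = t2i_J * mapGL ℝ g * t2i_J := by
  apply Matrix.GeneralLinearGroup.ext
  intro i j
  fin_cases i <;> fin_cases j <;>
    simp [t2i_J_val, Matrix.mul_apply, Fin.sum_univ_two, jConjMat, Matrix.vecMul, dotProduct]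

theorem t2i_conj_mul {G : Type*} [Group G] {J : G} (hJ : J * J = 1) (a b : G) :
    J * a * J * (J * b * J) = J * (a * b) * J := by
  calc J * a * J * (J * b * J) = J * a * (J * J) * b * J := by simp only [mul_assoc]
    _ = J * (a * b) * J := by
      rw [hJ, mul_one]
      simp only [mul_assoc]

/-! ### Negation on `ℙ¹(𝔽_p)` and the unipotent correction -/

/-- `x ↦ -x` on `ℙ¹(𝔽_p)` -/
def t2i_neg (x : OnePoint (ZMod p)) : OnePoint (ZMod p) :=
  x.elim ∞ (fun j => ((-j : ZMod p) : OnePoint (ZMod p)))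

@[simp] theorem t2i_neg_infty : t2i_neg (∞ : OnePoint (ZMod p)) = ∞ := rfl

@[simp] theorem t2i_neg_coe (j : ZMod p) :
    t2i_neg (j : OnePoint (ZMod p)) = ((-j : ZMod p) : OnePoint (ZMod p)) := rfl

theorem t2i_neg_neg (x : OnePoint (ZMod p)) : t2i_neg (t2i_neg x) = x := by
  induction x using OnePoint.rec with
  | infty => rfl
  | coe j => rw [t2i_neg_coe, t2i_neg_coe, neg_neg]

/-- `x ↦ -x` as a permutation -/
def t2i_negPerm : Equiv.Perm (OnePoint (ZMod p)) where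
  toFun := t2i_neg
  invFun := t2i_neg
  left_inv := t2i_neg_neg
  right_inv := t2i_neg_neg

/-- the carry: `-(j.val) = (-j).val - p * e` -/
def t2i_e (j : ZMod p) : ℤ := if j = 0 then 0 else 1

theorem t2i_e_spec (j : ZMod p) : -(j.val : ℤ) = ((-j : ZMod p).val : ℤ) - p * t2i_e j := by
  rw [ZMod.neg_val, t2i_e]
  split_ifs with h
  · subst h
    simp
  · rw [Nat.cast_sub (le_of_lt (ZMod.val_lt j))]
    ring

/-- `[[1, -e], [0, 1]]` -/
def t2i_uMat (e : ℤ) : SL(2, ℤ) := ⟨!![1, -e; 0, 1], by simp [Matrix.det_fin_two_of]⟩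

theorem t2i_uMat_val (e : ℤ) :
    ((t2i_uMat e : SL(2, ℤ)) : Matrix (Fin 2) (Fin 2) ℤ) = !![1, -e; 0, 1] := rfl

theorem t2i_uMat_mem (e : ℤ) : t2i_uMat e ∈ Gamma0 N := by
  rw [Gamma0_mem]
  simp [t2i_uMat]

/-- the unipotent correction `u_x` -/
def t2i_u (x : OnePoint (ZMod p)) : SL(2, ℤ) := x.elim 1 (fun j => t2i_uMat (t2i_e j))

theorem t2i_u_mem (x : OnePoint (ZMod p)) : t2i_u x ∈ Gamma0 N := by
  induction x using OnePoint.rec with
  | infty => exact one_mem _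
  | coe j => exact t2i_uMat_mem _

/-- `J α_x J = u_x α_{-x}` -/
theorem t2i_J_heckeRep (x : OnePoint (ZMod p)) :
    t2i_J * heckeRep p x * t2i_J = mapGL ℝ (t2i_u x) * heckeRep p (t2i_neg x) := by
  have hp : p ≠ 0 := (Fact.out : p.Prime).ne_zero
  induction x using OnePoint.rec with
  | infty =>
    rw [t2i_neg_infty, heckeRep_infty]
    show _ = mapGL ℝ 1 * _
    rw [map_one, one_mul]
    apply Matrix.GeneralLinearGroup.ext
    intro i j
    fin_cases i <;> fin_cases j <;>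
      simp [t2i_J_val, hp, Matrix.mul_apply, Fin.sum_univ_two]
  | coe j =>
    rw [t2i_neg_coe, heckeRep_coe, heckeRep_coe]
    show _ = mapGL ℝ (t2i_uMat (t2i_e j)) * _
    have he := congrArg (Int.cast : ℤ → ℝ) (t2i_e_spec j)
    push_cast at he
    apply Matrix.GeneralLinearGroup.ext
    intro i k
    fin_cases i <;> fin_cases k <;>
      simp [-ZMod.natCast_val, t2i_J_val, hp, Matrix.mul_apply, Fin.sum_univ_two, t2i_uMat_val]
    linear_combination he

/-! ### The action and the cocycle under conjugation by `J` -/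

theorem t2i_act_jConj (g : SL(2, ℤ)) (x : OnePoint (ZMod p)) :
    t2c_act (jConjSL g) (t2i_neg x) = t2i_neg (t2c_act g x) := by
  unfold t2c_act
  induction x using OnePoint.rec with
  | infty =>
    rw [t2i_neg_infty, OnePoint.smul_infty_eq_ite, OnePoint.smul_infty_eq_ite]
    simp only [redMatrix_apply_one_zero, redMatrix_apply_zero_zero, jConjSL_coe,
      jConjMat_apply_one_zero, jConjMat_apply_one_one, Int.cast_neg, neg_eq_zero]
    split_ifs with h
    · rfl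
    · rw [t2i_neg_coe, div_neg]
  | coe j =>
    rw [t2i_neg_coe, OnePoint.smul_some_eq_ite, OnePoint.smul_some_eq_ite]
    simp only [redMatrix_apply_one_zero, redMatrix_apply_zero_zero, redMatrix_apply_zero_one,
      redMatrix_apply_one_one, jConjSL_coe, jConjMat_apply_one_zero, jConjMat_apply_one_one,
      jConjMat_apply_zero_zero, jConjMat_apply_zero_one, Int.cast_neg, neg_mul_neg]
    split_ifs with h
    · rfl
    · rw [t2i_neg_coe, ← neg_div]
      congr 2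
      ring

/-- `c_{-x}(JγJ) = u_x⁻¹ · J c_x(γ) J · u_{x ⋆ γ}` -/
theorem t2i_coc_jConj (hpN : ¬ p ∣ N) (x : OnePoint (ZMod p)) (γ : Gamma0 N) :
    ((t2c_coc hpN (t2i_neg x) (jConjGamma0 N γ) : Gamma0 N) : SL(2, ℤ)) =
      (t2i_u x)⁻¹ * jConjSL ((t2c_coc hpN x γ : Gamma0 N) : SL(2, ℤ)) *
        t2i_u (t2c_act (γ : SL(2, ℤ)) x) := by
  apply t2c_coc_unique
  rw [jConjGamma0_coe, t2i_act_jConj, map_mul, map_mul, map_inv, t2i_mapGL_jConj, t2i_mapGL_jConj]
  have h := t2c_coc_spec hpN x γ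
  have h1 := t2i_J_heckeRep (p := p) x
  have h2 := t2i_J_heckeRep (p := p) (t2c_act (γ : SL(2, ℤ)) x)
  have h1' : heckeRep p (t2i_neg x) =
      (mapGL ℝ (t2i_u x))⁻¹ * (t2i_J * heckeRep p x * t2i_J) := by
    rw [h1, inv_mul_cancel_left]
  calc heckeRep p (t2i_neg x) * (t2i_J * mapGL ℝ (γ : SL(2, ℤ)) * t2i_J)
      = (mapGL ℝ (t2i_u x))⁻¹ *
          (t2i_J * heckeRep p x * t2i_J * (t2i_J * mapGL ℝ (γ : SL(2, ℤ)) * t2i_J)) := by
        rw [h1', mul_assoc]
    _ = (mapGL ℝ (t2i_u x))⁻¹ *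
          (t2i_J * (mapGL ℝ ((t2c_coc hpN x γ : Gamma0 N) : SL(2, ℤ)) *
            heckeRep p (t2c_act (γ : SL(2, ℤ)) x)) * t2i_J) := by
        rw [t2i_conj_mul t2i_J_mul_J, h]
    _ = (mapGL ℝ (t2i_u x))⁻¹ *
          (t2i_J * mapGL ℝ ((t2c_coc hpN x γ : Gamma0 N) : SL(2, ℤ)) * t2i_J *
            (t2i_J * heckeRep p (t2c_act (γ : SL(2, ℤ)) x) * t2i_J)) := by
        rw [t2i_conj_mul t2i_J_mul_J]
    _ = _ := by
        rw [h2]
        simp only [mul_assoc]

/-- the same identity inside `Γ₀(N)` -/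
theorem t2i_coc_jConj' (hpN : ¬ p ∣ N) (x : OnePoint (ZMod p)) (γ : Gamma0 N) :
    t2c_coc hpN (t2i_neg x) (jConjGamma0 N γ) =
      (⟨t2i_u x, t2i_u_mem x⟩ : Gamma0 N)⁻¹ * jConjGamma0 N (t2c_coc hpN x γ) *
        ⟨t2i_u (t2c_act (γ : SL(2, ℤ)) x), t2i_u_mem _⟩ := by
  apply Subtype.ext
  rw [t2i_coc_jConj]
  rfl

/-! ### The coset operator commutes with the involution -/

theorem t2i_Tadd_charInvolution {A : Type*} [AddCommGroup A] (R : Type*) [Semiring R] [Module R A]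
    (hpN : ¬ p ∣ N) (ψ : Additive (Gamma0 N) →+ A) :
    t2c_Tadd hpN (charInvolution N R A ψ) = charInvolution N R A (t2c_Tadd hpN ψ) := by
  refine AddMonoidHom.ext fun γ => ?_
  obtain ⟨γ, rfl⟩ := Additive.ofMul.surjective γ
  rw [t2c_Tadd_apply, charInvolution_apply, toMul_ofMul, t2c_Tadd_apply]
  have h1 : ∀ x : OnePoint (ZMod p),
      ψ (Additive.ofMul (t2c_coc hpN (t2i_negPerm x) (jConjGamma0 N γ))) =
        ψ (Additive.ofMul (jConjGamma0 N (t2c_coc hpN x γ))) +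
          (ψ (Additive.ofMul (⟨t2i_u (t2c_perm (γ : SL(2, ℤ)) x), t2i_u_mem _⟩ : Gamma0 N)) -
            ψ (Additive.ofMul (⟨t2i_u x, t2i_u_mem x⟩ : Gamma0 N))) := by
    intro x
    show ψ (Additive.ofMul (t2c_coc hpN (t2i_neg x) (jConjGamma0 N γ))) = _
    rw [t2i_coc_jConj', ofMul_mul, ofMul_mul, ofMul_inv, map_add, map_add, map_neg, t2c_perm_apply]
    abel
  symm
  calc ∑ y : OnePoint (ZMod p), ψ (Additive.ofMul (t2c_coc hpN y (jConjGamma0 N γ)))
      = ∑ x : OnePoint (ZMod p),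
          ψ (Additive.ofMul (t2c_coc hpN (t2i_negPerm x) (jConjGamma0 N γ))) :=
        (Equiv.sum_comp t2i_negPerm _).symm
    _ = ∑ x : OnePoint (ZMod p), (ψ (Additive.ofMul (jConjGamma0 N (t2c_coc hpN x γ))) +
          (ψ (Additive.ofMul (⟨t2i_u (t2c_perm (γ : SL(2, ℤ)) x), t2i_u_mem _⟩ : Gamma0 N)) -
            ψ (Additive.ofMul (⟨t2i_u x, t2i_u_mem x⟩ : Gamma0 N)))) :=
        Finset.sum_congr rfl fun x _ => h1 x
    _ = ∑ x : OnePoint (ZMod p), ψ (Additive.ofMul (jConjGamma0 N (t2c_coc hpN x γ))) := by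
        rw [Finset.sum_add_distrib, Finset.sum_sub_distrib,
          Equiv.sum_comp (t2c_perm (γ : SL(2, ℤ)))
            (fun x => ψ (Additive.ofMul (⟨t2i_u x, t2i_u_mem x⟩ : Gamma0 N))),
          sub_self, add_zero]
    _ = _ := rfl

end Fermat.Agent.JT3
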