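/-
JT3 / T2-lite, part 2b: the Hecke operators `T_H ℓ` on `H = Γ₀(N)^ab / (par, ell)` versus the Hecke
operators on `S₂(Γ₀(N))`.

Under the Eichler–Shimura isomorphism (S21) `S₂ × S₂ ≃ Hom_par(Γ₀(N), ℂ) = Hom(H, ℂ)`,
`(f, g) ↦ (1 + ι) pm f + (1 - ι) pm g`, precomposition with `T_H ℓ` is `(f, g) ↦ (T_ℓ f, T_ℓ g)`
(`t2f_comp_TH_pair`; from `t2p_periodMap_heckeT` and `t2i_Tadd_charInvolution`).  Consequences:

* `t2f_comm` : the `T_H ℓ` commute on `Hom(H, A)` for every torsion-free `A`;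
* `t2f_theta` : a ring homomorphism `θ` from the `ℤ`-algebra generated by the `T_H ℓ` (`ℓ` good) in
  `End(H)` to the Hecke algebra `heckeAlgebra N 2 S`, with `θ (T_H ℓ) = T_ℓ`, and `θ t = 0` iff
  `t` acts as `0` on `Hom(H, ℤ)`.
Prefix `t2f_`.
-/
import Mathlib
import Fermat.Prelude.Def_CuspForm_HeckeAlgebra
import Fermat.Agent.S21.Parabolic
import Fermat.Agent.JT3.T2.Period
import Fermat.Agent.JT3.T2.ParEll
import Fermat.Agent.JT3.T2.Involution

set_option autoImplicit false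
set_option linter.unusedSectionVars false

noncomputable section

open CongruenceSubgroup ModularCurve ModularCurve.Period
open Fermat.Agent.S21
open scoped MatrixGroups

namespace Fermat.Agent.JT3

variable {N : ℕ} [NeZero N]

/-! ### The Eichler–Shimura parametrisation is Hecke equivariant -/

section equivariance

variable {p : ℕ} [Fact p.Prime]

theorem t2f_Tadd_periodHomPair (hpN : ¬ p ∣ N) (f g : CuspForm (Gamma0 N) 2) :
    t2c_Tadd hpN (periodHomPair N (f, g)) =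
      periodHomPair N (CuspForm.heckeTLin 2 (Fact.out : p.Prime) hpN f,
        CuspForm.heckeTLin 2 (Fact.out : p.Prime) hpN g) := by
  rw [s21_periodHomPair_apply, s21_periodHomPair_apply, map_add, map_add, map_sub,
    t2i_Tadd_charInvolution ℂ, t2i_Tadd_charInvolution ℂ, ← t2p_periodMap_heckeT,
    ← t2p_periodMap_heckeT]

/-- every `ψ : H → ℂ` is a period pair -/
theorem t2f_exists_pair (ψ : gh_H N →+ ℂ) :
    ∃ f g : CuspForm (Gamma0 N) 2, ψ.comp (gh_mk N) = periodHomPair N (f, g) := by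
  have h21 := (Fermat.Agent.S20.gl_s21 N).2
  have hmem : ψ.comp (gh_mk N) ∈ parabolicHoms ℂ (Gamma0 N) ℂ := by
    rw [← gh_range_pullC]
    exact ⟨ψ, rfl⟩
  rw [← h21] at hmem
  obtain ⟨⟨f, g⟩, hfg⟩ := hmem
  exact ⟨f, g, hfg.symm⟩

/-- every period pair is a `ψ : H → ℂ` -/
theorem t2f_exists_hom (f g : CuspForm (Gamma0 N) 2) :
    ∃ ψ : gh_H N →+ ℂ, ψ.comp (gh_mk N) = periodHomPair N (f, g) := by
  have hmem : periodHomPair N (f, g) ∈ parabolicHoms ℂ (Gamma0 N) ℂ :=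
    s21_range_periodHomPair_le ⟨(f, g), rfl⟩
  rw [← gh_range_pullC] at hmem
  obtain ⟨ψ, hψ⟩ := hmem
  exact ⟨ψ, hψ⟩

theorem t2f_pair_injective {f g f' g' : CuspForm (Gamma0 N) 2}
    (h : periodHomPair N (f, g) = periodHomPair N (f', g')) : f = f' ∧ g = g' := by
  have := (Fermat.Agent.S20.gl_s21 N).1 h
  exact ⟨congrArg Prod.fst this, congrArg Prod.snd this⟩

/-- precomposition with `T_H` is `(f, g) ↦ (T f, T g)` -/
theorem t2f_comp_TH_pair (hpN : ¬ p ∣ N) (ψ : gh_H N →+ ℂ) (f g : CuspForm (Gamma0 N) 2)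
    (h : ψ.comp (gh_mk N) = periodHomPair N (f, g)) :
    (ψ.comp (t2e_TH hpN)).comp (gh_mk N) =
      periodHomPair N (CuspForm.heckeTLin 2 (Fact.out : p.Prime) hpN f,
        CuspForm.heckeTLin 2 (Fact.out : p.Prime) hpN g) := by
  rw [t2e_comp_TH, h, t2f_Tadd_periodHomPair]

end equivariance

/-! ### Two generic lemmas -/

/-- **the graph trick**: a functional relation `P ⊆ A × B` which holds on the subalgebra generated
by the pairs `(s i, u i)` gives a ring homomorphism `adjoin {s i} → B` with `s i ↦ u i`. -/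
theorem t2f_graph_hom {A B ι : Type*} [Ring A] [Ring B] (s : ι → A) (u : ι → B)
    (P : A → B → Prop) (hfun : ∀ a b b', P a b → P a b' → b = b')
    (hG : ∀ x ∈ Algebra.adjoin ℤ (Set.range fun i => ((s i, u i) : A × B)), P x.1 x.2) :
    ∃ θ : ↥(Algebra.adjoin ℤ (Set.range s)) →+* B,
      (∀ i, θ ⟨s i, Algebra.subset_adjoin (Set.mem_range_self i)⟩ = u i) ∧
      (∀ t : ↥(Algebra.adjoin ℤ (Set.range s)), P (t : A) (θ t)) := by
  set G := Algebra.adjoin ℤ (Set.range fun i => ((s i, u i) : A × B)) with hGdef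
  have hmap : Algebra.adjoin ℤ (Set.range s) = G.map (AlgHom.fst ℤ A B) := by
    rw [hGdef, AlgHom.map_adjoin, ← Set.range_comp]
    rfl
  have hex : ∀ t : ↥(Algebra.adjoin ℤ (Set.range s)), ∃ b : B, ((t : A), b) ∈ G := by
    rintro ⟨t, ht⟩
    rw [hmap] at ht
    obtain ⟨x, hx, rfl⟩ := ht
    exact ⟨x.2, hx⟩
  choose θ hθ using hex
  have huniq : ∀ (t : ↥(Algebra.adjoin ℤ (Set.range s))) (b : B), ((t : A), b) ∈ G → θ t = b :=
    fun t b hb => hfun _ _ _ (hG _ (hθ t)) (hG _ hb)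
  refine ⟨{ toFun := θ, map_one' := ?_, map_mul' := ?_, map_zero' := ?_, map_add' := ?_ },
    ?_, ?_⟩
  · exact huniq 1 1 (one_mem G)
  · intro t t'
    exact huniq (t * t') _ (mul_mem (hθ t) (hθ t'))
  · exact huniq 0 0 (zero_mem G)
  · intro t t'
    exact huniq (t + t') _ (add_mem (hθ t) (hθ t'))
  · intro i
    exact huniq _ _ (Algebra.subset_adjoin ⟨i, rfl⟩)
  · intro t
    exact hG _ (hθ t)

/-- an endomorphism of a finitely generated abelian group which is killed by all homomorphisms to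
`ℤ` is killed by all homomorphisms to torsion-free groups (its image is torsion). -/
theorem t2f_comp_eq_zero {G : Type*} [AddCommGroup G] [AddGroup.FG G] (δ : G →+ G)
    (h : ∀ ψ : G →+ ℤ, ψ.comp δ = 0) {A : Type*} [AddCommGroup A] [NoZeroSMulDivisors ℕ A]
    (ψ : G →+ A) : ψ.comp δ = 0 := by
  classical
  obtain ⟨Y, _, _, ⟨f⟩⟩ := gh_exists_equiv G
  refine AddMonoidHom.ext fun x => ?_
  rw [AddMonoidHom.comp_apply, AddMonoidHom.zero_apply]
  have h1 : (f (δ x)).1 = 0 := by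
    funext i
    have := DFunLike.congr_fun
      (h ((Pi.evalAddMonoidHom (fun _ => ℤ) i).comp
        ((AddMonoidHom.fst _ _).comp f.toAddMonoidHom))) x
    simpa using this
  have h2 : Nat.card Y • δ x = 0 := by
    apply f.injective
    rw [map_nsmul, map_zero]
    refine Prod.ext ?_ ?_
    · rw [Prod.smul_fst, h1, smul_zero, Prod.fst_zero]
    · rw [Prod.smul_snd, Prod.snd_zero]
      exact card_nsmul_eq_zero'
  have h3 : Nat.card Y • ψ (δ x) = 0 := by rw [← map_nsmul, h2, map_zero]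
  rcases smul_eq_zero.1 h3 with h4 | h4
  · exact absurd h4 Nat.card_pos.ne'
  · exact h4

/-- the same with `ℂ` as test group -/
theorem t2f_comp_eq_zero_of_complex {G : Type*} [AddCommGroup G] [AddGroup.FG G] (δ : G →+ G)
    (h : ∀ ψ : G →+ ℂ, ψ.comp δ = 0) {A : Type*} [AddCommGroup A] [NoZeroSMulDivisors ℕ A]
    (ψ : G →+ A) : ψ.comp δ = 0 := by
  refine t2f_comp_eq_zero δ (fun χ => ?_) ψ
  refine AddMonoidHom.ext fun x => ?_
  have := DFunLike.congr_fun (h ((Int.castAddHom ℂ).comp χ)) x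
  simpa using this

/-! ### The operators `T_H ℓ` for all `ℓ : ℕ`, and compatibility with `S₂` -/

variable (N) in
/-- the Hecke operator `T_H ℓ` on `H`, as a total function of `ℓ` (zero unless `ℓ` is a prime not
dividing `N`) -/
def t2f_TH (ℓ : ℕ) : Module.End ℤ (gh_H N) :=
  if h : ℓ.Prime ∧ ¬ ℓ ∣ N then (@t2e_TH N ℓ ⟨h.1⟩ h.2).toIntLinearMap else 0

theorem t2f_TH_eq {ℓ : ℕ} (hℓ : ℓ.Prime) (hℓN : ¬ ℓ ∣ N) :
    t2f_TH N ℓ = (@t2e_TH N ℓ ⟨hℓ⟩ hℓN).toIntLinearMap := dif_pos ⟨hℓ, hℓN⟩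

theorem t2f_TH_apply {ℓ : ℕ} (hℓ : ℓ.Prime) (hℓN : ¬ ℓ ∣ N) (x : gh_H N) :
    t2f_TH N ℓ x = @t2e_TH N ℓ ⟨hℓ⟩ hℓN x := by
  rw [t2f_TH_eq hℓ hℓN]
  rfl

theorem t2f_TH_eq_zero {ℓ : ℕ} (h : ¬ (ℓ.Prime ∧ ¬ ℓ ∣ N)) : t2f_TH N ℓ = 0 := dif_neg h

/-- `ℓ` is a good prime -/
def t2f_Good (N : ℕ) (S : Set ℕ) (ℓ : ℕ) : Prop := ℓ.Prime ∧ ¬ ℓ ∣ N ∧ ℓ ∉ S

/-- `(t, τ)` are compatible: under the Eichler–Shimura parametrisation of `Hom(H, ℂ)`,
`ψ ↦ ψ ∘ t` is `(f, g) ↦ (τ f, τ g)`. -/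
def t2f_Compat (t : Module.End ℤ (gh_H N)) (τ : Module.End ℂ (CuspForm (Gamma0 N) 2)) : Prop :=
  ∀ (ψ : gh_H N →+ ℂ) (f g : CuspForm (Gamma0 N) 2),
    ψ.comp (gh_mk N) = periodHomPair N (f, g) →
      (ψ.comp t.toAddMonoidHom).comp (gh_mk N) = periodHomPair N (τ f, τ g)

theorem t2f_compat_TH {ℓ : ℕ} (hℓ : ℓ.Prime) (hℓN : ¬ ℓ ∣ N) :
    t2f_Compat (t2f_TH N ℓ) (CuspForm.heckeTLin 2 hℓ hℓN) := by
  intro ψ f g h
  have : Fact ℓ.Prime := ⟨hℓ⟩
  rw [t2f_TH_eq hℓ hℓN]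
  exact t2f_comp_TH_pair hℓN ψ f g h

theorem t2f_compat_algebraMap (n : ℤ) :
    t2f_Compat (algebraMap ℤ (Module.End ℤ (gh_H N)) n)
      (algebraMap ℤ (Module.End ℂ (CuspForm (Gamma0 N) 2)) n) := by
  intro ψ f g h
  have h1 : (ψ.comp (algebraMap ℤ (Module.End ℤ (gh_H N)) n).toAddMonoidHom).comp (gh_mk N) =
      n • ψ.comp (gh_mk N) := by
    refine AddMonoidHom.ext fun x => ?_
    simp
  rw [h1, h, Module.algebraMap_end_apply, Module.algebraMap_end_apply, ← Prod.smul_mk,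
    map_zsmul]

theorem t2f_compat_add {t t' : Module.End ℤ (gh_H N)}
    {τ τ' : Module.End ℂ (CuspForm (Gamma0 N) 2)} (h : t2f_Compat t τ) (h' : t2f_Compat t' τ') :
    t2f_Compat (t + t') (τ + τ') := by
  intro ψ f g hψ
  have h1 : (ψ.comp (t + t').toAddMonoidHom).comp (gh_mk N) =
      (ψ.comp t.toAddMonoidHom).comp (gh_mk N) + (ψ.comp t'.toAddMonoidHom).comp (gh_mk N) := by
    refine AddMonoidHom.ext fun x => ?_
    simp
  rw [h1, h ψ f g hψ, h' ψ f g hψ, LinearMap.add_apply, LinearMap.add_apply, ← map_add,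
    Prod.mk_add_mk]

theorem t2f_compat_mul {t t' : Module.End ℤ (gh_H N)}
    {τ τ' : Module.End ℂ (CuspForm (Gamma0 N) 2)} (h : t2f_Compat t τ) (h' : t2f_Compat t' τ') :
    t2f_Compat (t * t') (τ' * τ) := by
  intro ψ f g hψ
  exact h' (ψ.comp t.toAddMonoidHom) (τ f) (τ g) (h ψ f g hψ)

/-- compatibility determines `τ` -/
theorem t2f_compat_unique {t : Module.End ℤ (gh_H N)}
    {τ τ' : Module.End ℂ (CuspForm (Gamma0 N) 2)} (h : t2f_Compat t τ) (h' : t2f_Compat t τ') :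
    τ = τ' := by
  refine LinearMap.ext fun f => ?_
  obtain ⟨ψ, hψ⟩ := t2f_exists_hom f (0 : CuspForm (Gamma0 N) 2)
  exact (t2f_pair_injective ((h ψ f 0 hψ).symm.trans (h' ψ f 0 hψ))).1

/-- compatibility determines the action of `t` on `Hom(H, ℂ)` -/
theorem t2f_compat_comp_eq {t t' : Module.End ℤ (gh_H N)}
    {τ : Module.End ℂ (CuspForm (Gamma0 N) 2)} (h : t2f_Compat t τ) (h' : t2f_Compat t' τ)
    {A : Type*} [AddCommGroup A] [NoZeroSMulDivisors ℕ A] (ψ : gh_H N →+ A) :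
    ψ.comp t.toAddMonoidHom = ψ.comp t'.toAddMonoidHom := by
  have key : ψ.comp (t.toAddMonoidHom - t'.toAddMonoidHom) = 0 := by
    refine t2f_comp_eq_zero_of_complex _ (fun χ => ?_) ψ
    obtain ⟨f, g, hfg⟩ := t2f_exists_pair χ
    have h1 := (h χ f g hfg).trans (h' χ f g hfg).symm
    have h2 : χ.comp t.toAddMonoidHom = χ.comp t'.toAddMonoidHom :=
      gh_hom_ext fun x => DFunLike.congr_fun h1 x
    refine AddMonoidHom.ext fun x => ?_
    have := DFunLike.congr_fun h2 x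
    simp only [AddMonoidHom.comp_apply, AddMonoidHom.sub_apply, map_sub, AddMonoidHom.zero_apply]
      at this ⊢
    rw [this, sub_self]
  refine AddMonoidHom.ext fun x => ?_
  have := DFunLike.congr_fun key x
  simp only [AddMonoidHom.comp_apply, AddMonoidHom.sub_apply, map_sub, AddMonoidHom.zero_apply]
    at this
  exact sub_eq_zero.1 this

/-! ### Commutation -/

/-- **the `T_H ℓ` commute on `Hom(H, A)`, `A` torsion-free** -/
theorem t2f_comm (ℓ ℓ' : ℕ) {A : Type*} [AddCommGroup A] [NoZeroSMulDivisors ℕ A]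
    (ψ : gh_H N →+ A) :
    ψ.comp (t2f_TH N ℓ * t2f_TH N ℓ').toAddMonoidHom =
      ψ.comp (t2f_TH N ℓ' * t2f_TH N ℓ).toAddMonoidHom := by
  by_cases h : ℓ.Prime ∧ ¬ ℓ ∣ N
  · by_cases h' : ℓ'.Prime ∧ ¬ ℓ' ∣ N
    · have c1 := t2f_compat_mul (t2f_compat_TH h.1 h.2) (t2f_compat_TH h'.1 h'.2)
      have c2 := t2f_compat_mul (t2f_compat_TH h'.1 h'.2) (t2f_compat_TH h.1 h.2)
      rw [(CuspForm.heckeTLin_comm 2 h'.1 h'.2 h.1 h.2).eq] at c1
      exact t2f_compat_comp_eq c1 c2 ψ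
    · rw [t2f_TH_eq_zero h', mul_zero, zero_mul]
  · rw [t2f_TH_eq_zero h, mul_zero, zero_mul]

/-! ### The homomorphism to the Hecke algebra -/

variable (N) in
/-- the operators `T_H ℓ` at the good primes -/
def t2f_heckeSet (S : Set ℕ) : Set (Module.End ℤ (gh_H N)) :=
  Set.range fun ℓ : {ℓ : ℕ // t2f_Good N S ℓ} => t2f_TH N ℓ

theorem t2f_mem_heckeSet_iff {S : Set ℕ} {T : Module.End ℤ (gh_H N)} :
    T ∈ t2f_heckeSet N S ↔ ∃ ℓ, t2f_Good N S ℓ ∧ T = t2f_TH N ℓ := by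
  constructor
  · rintro ⟨⟨ℓ, hℓ⟩, rfl⟩
    exact ⟨ℓ, hℓ, rfl⟩
  · rintro ⟨ℓ, hℓ, rfl⟩
    exact ⟨⟨ℓ, hℓ⟩, rfl⟩

theorem t2f_mem_adjoin {S : Set ℕ} {ℓ : ℕ} (hℓ : ℓ.Prime) (hℓN : ¬ ℓ ∣ N) (hℓS : ℓ ∉ S) :
    t2f_TH N ℓ ∈ Algebra.adjoin ℤ (t2f_heckeSet N S) :=
  Algebra.subset_adjoin ⟨⟨ℓ, hℓ, hℓN, hℓS⟩, rfl⟩

variable (N) in
/-- **the homomorphism `θ` from the Hecke algebra of `H` to the Hecke algebra of `S₂(Γ₀(N))`**:
`θ (T_H ℓ) = T_ℓ`, and `θ t` is compatible with `t` under Eichler–Shimura. -/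
theorem t2f_theta (S : Set ℕ) :
    ∃ θ : ↥(Algebra.adjoin ℤ (t2f_heckeSet N S)) →+* ↥(CuspForm.heckeAlgebra N 2 S),
      (∀ (ℓ : ℕ) (hℓ : ℓ.Prime) (hℓN : ¬ ℓ ∣ N) (hℓS : ℓ ∉ S),
        θ ⟨t2f_TH N ℓ, t2f_mem_adjoin hℓ hℓN hℓS⟩ = CuspForm.heckeAlgebra.T hℓ hℓN hℓS) ∧
      (∀ t : ↥(Algebra.adjoin ℤ (t2f_heckeSet N S)),
        t2f_Compat (t : Module.End ℤ (gh_H N))
          ((θ t : ↥(CuspForm.heckeAlgebra N 2 S)) :
            Module.End ℂ (CuspForm (Gamma0 N) 2))) := by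
  obtain ⟨θ, h1, h2⟩ := t2f_graph_hom
    (fun ℓ : {ℓ : ℕ // t2f_Good N S ℓ} => t2f_TH N ℓ)
    (fun ℓ : {ℓ : ℕ // t2f_Good N S ℓ} =>
      (CuspForm.heckeAlgebra.T ℓ.2.1 ℓ.2.2.1 ℓ.2.2.2 : ↥(CuspForm.heckeAlgebra N 2 S)))
    (fun t τ => t2f_Compat t (τ : Module.End ℂ (CuspForm (Gamma0 N) 2)))
    (fun a b b' h h' => Subtype.ext (t2f_compat_unique h h'))
    (by
      intro x hx
      induction hx using Algebra.adjoin_induction with
      | mem x hx =>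
        obtain ⟨ℓ, rfl⟩ := hx
        exact t2f_compat_TH ℓ.2.1 ℓ.2.2.1
      | algebraMap n => exact t2f_compat_algebraMap n
      | add x y _ _ hx hy => exact t2f_compat_add hx hy
      | mul x y _ _ hx hy =>
        have := t2f_compat_mul hx hy
        rw [show ((y.2 : ↥(CuspForm.heckeAlgebra N 2 S)) :
              Module.End ℂ (CuspForm (Gamma0 N) 2)) * (x.2 : ↥(CuspForm.heckeAlgebra N 2 S)) =
            ((x * y).2 : ↥(CuspForm.heckeAlgebra N 2 S)) by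
          rw [Prod.snd_mul, mul_comm]; rfl] at this
        exact this)
  exact ⟨θ, fun ℓ hℓ hℓN hℓS => h1 ⟨ℓ, hℓ, hℓN, hℓS⟩, h2⟩

/-- `θ t = 0` iff `t` acts as zero on `Hom(H, A)` for all torsion-free `A`: one direction -/
theorem t2f_compat_zero_iff {t : Module.End ℤ (gh_H N)}
    {τ : Module.End ℂ (CuspForm (Gamma0 N) 2)} (h : t2f_Compat t τ) :
    τ = 0 ↔ ∀ ψ : gh_H N →+ ℤ, ψ.comp t.toAddMonoidHom = 0 := by
  have h0 : t2f_Compat (0 : Module.End ℤ (gh_H N))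
      (0 : Module.End ℂ (CuspForm (Gamma0 N) 2)) := by
    have := t2f_compat_algebraMap (N := N) 0
    simpa using this
  constructor
  · intro hτ ψ
    subst hτ
    rw [t2f_compat_comp_eq h h0 ψ]
    refine AddMonoidHom.ext fun x => ?_
    simp
  · intro hψ
    refine t2f_compat_unique (t := t) h ?_
    intro χ f g hfg
    have h1 : χ.comp t.toAddMonoidHom = 0 :=
      t2f_comp_eq_zero t.toAddMonoidHom hψ χ
    have h2 := h0 χ f g hfg
    rw [← h2, h1]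
    refine AddMonoidHom.ext fun x => ?_
    simp

end Fermat.Agent.JT3
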