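/-
JT3 / T2-lite, part 2c: the dual Hecke operators `T*_ℓ ψ = ψ ∘ T_H ℓ` on the lattice
`Λ = Hom(H, ℤ)` (free of rank `2g`), in the shape consumed by the `[PK-LAT]` adapter:

* `t2d_Ts N ℓ : Module.End ℤ (gh_H N →+ ℤ)`, pairwise commuting (`t2d_Ts_comm`);
* `t2d_theta` : a ring homomorphism from the `ℤ`-algebra generated by the `T*_ℓ` (`ℓ` good) to
  `heckeAlgebra N 2 S` with `T*_ℓ ↦ T_ℓ`, injective (`t2d_theta_injective` form: `θ d = 0 → d = 0`).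
Prefix `t2d_`.
-/
import Mathlib
import Fermat.Agent.JT3.T2.Faithful
import Fermat.Agent.JT3.Pack.Defs

set_option autoImplicit false
set_option linter.unusedSectionVars false

noncomputable section

open CongruenceSubgroup ModularCurve ModularCurve.Period

namespace Fermat.Agent.JT3

variable {N : ℕ} [NeZero N]

/-! ### Precomposition -/

/-- `ψ ↦ ψ ∘ t` on `Hom(H, A)` -/
def t2d_dual (A : Type*) [AddCommGroup A] (t : Module.End ℤ (gh_H N)) :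
    Module.End ℤ (gh_H N →+ A) where
  toFun ψ := ψ.comp t.toAddMonoidHom
  map_add' _ _ := rfl
  map_smul' _ _ := rfl

@[simp] theorem t2d_dual_apply (A : Type*) [AddCommGroup A] (t : Module.End ℤ (gh_H N))
    (ψ : gh_H N →+ A) : t2d_dual A t ψ = ψ.comp t.toAddMonoidHom := rfl

theorem t2d_dual_mul (A : Type*) [AddCommGroup A] (t t' : Module.End ℤ (gh_H N)) :
    t2d_dual A (t * t') = t2d_dual A t' * t2d_dual A t := rfl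

theorem t2d_dual_add (A : Type*) [AddCommGroup A] (t t' : Module.End ℤ (gh_H N)) :
    t2d_dual A (t + t') = t2d_dual A t + t2d_dual A t' := by
  refine LinearMap.ext fun ψ => AddMonoidHom.ext fun x => ?_
  simp

theorem t2d_dual_algebraMap (A : Type*) [AddCommGroup A] (n : ℤ) :
    t2d_dual A (algebraMap ℤ (Module.End ℤ (gh_H N)) n) =
      algebraMap ℤ (Module.End ℤ (gh_H N →+ A)) n := by
  refine LinearMap.ext fun ψ => AddMonoidHom.ext fun x => ?_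
  simp

/-- the dual operators commute on `Hom(H, A)`, `A` torsion-free -/
theorem t2d_dual_comm (A : Type*) [AddCommGroup A] [NoZeroSMulDivisors ℕ A] (ℓ ℓ' : ℕ) :
    Commute (t2d_dual A (t2f_TH N ℓ)) (t2d_dual A (t2f_TH N ℓ')) := by
  show t2d_dual A (t2f_TH N ℓ) * t2d_dual A (t2f_TH N ℓ') =
    t2d_dual A (t2f_TH N ℓ') * t2d_dual A (t2f_TH N ℓ)
  rw [← t2d_dual_mul, ← t2d_dual_mul]
  refine LinearMap.ext fun ψ => ?_
  exact t2f_comm ℓ' ℓ ψ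

/-! ### The lattice `Λ = Hom(H, ℤ)` -/

variable (N) in
/-- the dual Hecke operator `T*_ℓ` on `Λ = Hom(H, ℤ)` (total in `ℓ`) -/
def t2d_Ts (ℓ : ℕ) : Module.End ℤ (gh_H N →+ ℤ) := t2d_dual ℤ (t2f_TH N ℓ)

theorem t2d_Ts_apply (ℓ : ℕ) (ψ : gh_H N →+ ℤ) :
    t2d_Ts N ℓ ψ = ψ.comp (t2f_TH N ℓ).toAddMonoidHom := rfl

theorem t2d_Ts_apply' {ℓ : ℕ} (hℓ : ℓ.Prime) (hℓN : ¬ ℓ ∣ N) (ψ : gh_H N →+ ℤ) :
    t2d_Ts N ℓ ψ = ψ.comp (@t2e_TH N ℓ ⟨hℓ⟩ hℓN) := by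
  rw [t2d_Ts_apply, t2f_TH_eq hℓ hℓN]
  rfl

theorem t2d_Ts_comm (ℓ ℓ' : ℕ) : Commute (t2d_Ts N ℓ) (t2d_Ts N ℓ') :=
  t2d_dual_comm ℤ ℓ ℓ'

/-- the relation used for the graph trick -/
def t2d_Rel (d : Module.End ℤ (gh_H N →+ ℤ)) (τ : Module.End ℂ (CuspForm (Gamma0 N) 2)) : Prop :=
  ∃ t : Module.End ℤ (gh_H N), t2f_Compat t τ ∧ d = t2d_dual ℤ t

theorem t2d_rel_unique {d : Module.End ℤ (gh_H N →+ ℤ)}
    {τ τ' : Module.End ℂ (CuspForm (Gamma0 N) 2)} (h : t2d_Rel d τ) (h' : t2d_Rel d τ') :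
    τ = τ' := by
  obtain ⟨t, ht, rfl⟩ := h
  obtain ⟨t', ht', hd⟩ := h'
  -- `t - t'` is compatible with `τ - τ'` and acts as zero on `Λ`
  have hneg : t2f_Compat (algebraMap ℤ (Module.End ℤ (gh_H N)) (-1) * t')
      (τ' * algebraMap ℤ (Module.End ℂ (CuspForm (Gamma0 N) 2)) (-1)) :=
    t2f_compat_mul (t2f_compat_algebraMap (-1)) ht'
  have hsub := t2f_compat_add ht hneg
  have hzero : τ + τ' * algebraMap ℤ (Module.End ℂ (CuspForm (Gamma0 N) 2)) (-1) = 0 := by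
    rw [t2f_compat_zero_iff hsub]
    intro ψ
    have h1 : ψ.comp t.toAddMonoidHom = ψ.comp t'.toAddMonoidHom := by
      have := LinearMap.congr_fun hd ψ
      exact this
    refine AddMonoidHom.ext fun x => ?_
    have h2 := DFunLike.congr_fun h1 x
    simp only [AddMonoidHom.comp_apply, LinearMap.toAddMonoidHom_coe] at h2
    simp [h2]
  have : τ - τ' = 0 := by
    rw [← hzero]
    simp [sub_eq_add_neg]
  exact sub_eq_zero.1 this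

theorem t2d_rel_zero {d : Module.End ℤ (gh_H N →+ ℤ)} (h : t2d_Rel d 0) : d = 0 := by
  obtain ⟨t, ht, rfl⟩ := h
  refine LinearMap.ext fun ψ => ?_
  exact (t2f_compat_zero_iff ht).1 rfl ψ

theorem t2d_rel_Ts {ℓ : ℕ} (hℓ : ℓ.Prime) (hℓN : ¬ ℓ ∣ N) :
    t2d_Rel (t2d_Ts N ℓ) (CuspForm.heckeTLin 2 hℓ hℓN) :=
  ⟨t2f_TH N ℓ, t2f_compat_TH hℓ hℓN, rfl⟩

theorem t2d_rel_algebraMap (n : ℤ) :
    t2d_Rel (algebraMap ℤ (Module.End ℤ (gh_H N →+ ℤ)) n)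
      (algebraMap ℤ (Module.End ℂ (CuspForm (Gamma0 N) 2)) n) :=
  ⟨algebraMap ℤ _ n, t2f_compat_algebraMap n, (t2d_dual_algebraMap ℤ n).symm⟩

theorem t2d_rel_add {d d' : Module.End ℤ (gh_H N →+ ℤ)}
    {τ τ' : Module.End ℂ (CuspForm (Gamma0 N) 2)} (h : t2d_Rel d τ) (h' : t2d_Rel d' τ') :
    t2d_Rel (d + d') (τ + τ') := by
  obtain ⟨t, ht, rfl⟩ := h
  obtain ⟨t', ht', rfl⟩ := h'
  exact ⟨t + t', t2f_compat_add ht ht', (t2d_dual_add ℤ t t').symm⟩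

theorem t2d_rel_mul {d d' : Module.End ℤ (gh_H N →+ ℤ)}
    {τ τ' : Module.End ℂ (CuspForm (Gamma0 N) 2)} (h : t2d_Rel d τ) (h' : t2d_Rel d' τ') :
    t2d_Rel (d * d') (τ * τ') := by
  obtain ⟨t, ht, rfl⟩ := h
  obtain ⟨t', ht', rfl⟩ := h'
  exact ⟨t' * t, t2f_compat_mul ht' ht, (t2d_dual_mul ℤ t' t).symm⟩

/-! ### The homomorphism `θ` on the Hecke algebra of `Λ` -/

/-- the graph trick for a generating set given as a set -/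
theorem t2d_graph_hom' {A B ι : Type*} [Ring A] [Ring B] (s : ι → A) (u : ι → B)
    (P : A → B → Prop) (hfun : ∀ a b b', P a b → P a b' → b = b')
    (hG : ∀ x ∈ Algebra.adjoin ℤ (Set.range fun i => ((s i, u i) : A × B)), P x.1 x.2)
    (X : Set A) (hX : X = Set.range s) :
    ∃ θ : ↥(Algebra.adjoin ℤ X) →+* B,
      (∀ (i : ι) (h : s i ∈ Algebra.adjoin ℤ X), θ ⟨s i, h⟩ = u i) ∧
      (∀ t : ↥(Algebra.adjoin ℤ X), P (t : A) (θ t)) := by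
  subst hX
  obtain ⟨θ, h1, h2⟩ := t2f_graph_hom s u P hfun hG
  exact ⟨θ, fun i _ => h1 i, h2⟩

variable (N) in
/-- the dual Hecke operators at the good primes -/
def t2d_heckeSet (S : Set ℕ) : Set (Module.End ℤ (gh_H N →+ ℤ)) :=
  {T | ∃ ℓ, t2f_Good N S ℓ ∧ T = t2d_Ts N ℓ}

theorem t2d_mem_adjoin {S : Set ℕ} {ℓ : ℕ} (hℓ : ℓ.Prime) (hℓN : ¬ ℓ ∣ N) (hℓS : ℓ ∉ S) :
    t2d_Ts N ℓ ∈ Algebra.adjoin ℤ (t2d_heckeSet N S) :=
  Algebra.subset_adjoin ⟨ℓ, ⟨hℓ, hℓN, hℓS⟩, rfl⟩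

variable (N) in
/-- **`θ : ℤ[T*_ℓ, ℓ good] → heckeAlgebra N 2 S`, `T*_ℓ ↦ T_ℓ`, injective.** -/
theorem t2d_theta (S : Set ℕ) :
    ∃ θ : ↥(Algebra.adjoin ℤ (t2d_heckeSet N S)) →+* ↥(CuspForm.heckeAlgebra N 2 S),
      (∀ (ℓ : ℕ) (hℓ : ℓ.Prime) (hℓN : ¬ ℓ ∣ N) (hℓS : ℓ ∉ S),
        θ ⟨t2d_Ts N ℓ, t2d_mem_adjoin hℓ hℓN hℓS⟩ = CuspForm.heckeAlgebra.T hℓ hℓN hℓS) ∧
      Function.Injective θ := by
  obtain ⟨θ, h1, h2⟩ := t2d_graph_hom'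
    (fun ℓ : {ℓ : ℕ // t2f_Good N S ℓ} => t2d_Ts N ℓ)
    (fun ℓ : {ℓ : ℕ // t2f_Good N S ℓ} =>
      (CuspForm.heckeAlgebra.T ℓ.2.1 ℓ.2.2.1 ℓ.2.2.2 : ↥(CuspForm.heckeAlgebra N 2 S)))
    (fun d τ => t2d_Rel d (τ : Module.End ℂ (CuspForm (Gamma0 N) 2)))
    (fun a b b' h h' => Subtype.ext (t2d_rel_unique h h'))
    (by
      intro x hx
      induction hx using Algebra.adjoin_induction with
      | mem x hx =>
        obtain ⟨ℓ, rfl⟩ := hx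
        exact t2d_rel_Ts ℓ.2.1 ℓ.2.2.1
      | algebraMap n => exact t2d_rel_algebraMap n
      | add x y _ _ hx hy => exact t2d_rel_add hx hy
      | mul x y _ _ hx hy => exact t2d_rel_mul hx hy)
    (t2d_heckeSet N S)
    (by
      ext T
      constructor
      · rintro ⟨ℓ, hℓ, rfl⟩
        exact ⟨⟨ℓ, hℓ⟩, rfl⟩
      · rintro ⟨⟨ℓ, hℓ⟩, rfl⟩
        exact ⟨ℓ, hℓ, rfl⟩)
  refine ⟨θ, fun ℓ hℓ hℓN hℓS => h1 ⟨ℓ, hℓ, hℓN, hℓS⟩ _, ?_⟩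
  rw [injective_iff_map_eq_zero]
  intro d hd
  have := h2 d
  rw [hd] at this
  exact Subtype.ext (t2d_rel_zero this)

/-- the same in the `pk_` shape (`S : Finset ℕ`, `pk_Good`) -/
theorem t2d_theta_pk (N : ℕ) [NeZero N] (S : Finset ℕ) :
    ∃ θ : ↥(Algebra.adjoin ℤ {T | ∃ ℓ, pk_Good N S ℓ ∧ T = t2d_Ts N ℓ}) →+*
        ↥(CuspForm.heckeAlgebra N 2 (↑S : Set ℕ)),
      (∀ (ℓ : ℕ) (hℓ : ℓ.Prime) (hℓN : ¬ ℓ ∣ N) (hℓS : ℓ ∉ (↑S : Set ℕ)),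
        θ ⟨t2d_Ts N ℓ, Algebra.subset_adjoin ⟨ℓ, ⟨hℓ, hℓN, hℓS⟩, rfl⟩⟩ =
          CuspForm.heckeAlgebra.T hℓ hℓN hℓS) ∧
      Function.Injective θ :=
  t2d_theta N (↑S : Set ℕ)

end Fermat.Agent.JT3
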